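import Fermat.Agent.Ribet.H403.DetCyc
import Fermat.Agent.Ribet.Spec
import Fermat.Agent.S13

/-!
# RIBET pieces DETF and NMT (helper403)

* `frey_nonscalar` : for the Frey curve, some element of `Gal(ℚ̄/ℚ)` does not act on `E[p]` as a
  scalar (landed S13 + T7: a scalar image would be reducible, hence have a cofixed line, hence be
  trivial, hence `E[p]` would consist of rational points).
* `frey_det_eq_cycloPow`, `frey_det_eq_of_apply_root` : `det (σ | E[p]) = χ_p(σ)` for ALL `σ`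
  (no irreducibility hypothesis, no Weil pairing).
* `detFrob : Spec.DetFrobStatement` (DETF).
* `notMultiplicativeType : Spec.NotMultiplicativeTypeStatement` (NMT), via landed Minkowski.
-/

set_option autoImplicit false

open WeierstrassCurve WeierstrassCurve.Affine WeierstrassCurve.Affine.Point

namespace Fermat.Agent.Ribet.H403

open Fermat.Agent.S55.H414

variable (P : FreyPackage)

/-! ### The integral Frey curve -/

lemma frey_four_dvd : (4 : ℤ) ∣ P.b ^ P.p - 1 - P.a ^ P.p := by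
  have hp := P.hp5
  have hb : (2 : ℤ) ∣ P.b := (ZMod.intCast_zmod_eq_zero_iff_dvd P.b 2).1 P.hb2
  have hb4 : (4 : ℤ) ∣ P.b ^ P.p := by
    obtain ⟨k, hk⟩ := hb
    obtain ⟨j, hj⟩ : ∃ j, P.p = j + 2 := ⟨P.p - 2, by omega⟩
    have : P.b ^ P.p = 4 * (2 ^ j * k ^ P.p) := by
      rw [hk, hj]
      ring
    exact ⟨_, this⟩
  have ha : ((P.a ^ P.p : ℤ) : ZMod 4) = 3 := by
    push_cast
    rw [P.ha4]
    obtain ⟨m, hm⟩ := P.hp_odd
    rw [hm, pow_succ, pow_mul]
    have : (3 : ZMod 4) ^ 2 = 1 := by decide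
    rw [this, one_pow, one_mul]
  have hb' : ((P.b ^ P.p : ℤ) : ZMod 4) = 0 :=
    (ZMod.intCast_zmod_eq_zero_iff_dvd _ 4).2 hb4
  apply (ZMod.intCast_zmod_eq_zero_iff_dvd _ 4).1
  push_cast at ha hb' ⊢
  rw [ha, hb']
  decide

lemma frey_sixteen_dvd : (16 : ℤ) ∣ -(P.a ^ P.p) * P.b ^ P.p := by
  have hp := P.hp5
  have hb : (2 : ℤ) ∣ P.b := (ZMod.intCast_zmod_eq_zero_iff_dvd P.b 2).1 P.hb2
  obtain ⟨k, hk⟩ := hb
  obtain ⟨j, hj⟩ : ∃ j, P.p = j + 4 := ⟨P.p - 4, by omega⟩
  have : -(P.a ^ P.p) * P.b ^ P.p = 16 * (-(P.a ^ P.p) * (2 ^ j * k ^ P.p)) := by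
    rw [hk, hj]
    ring
  exact ⟨_, this⟩

/-- The Frey curve over `ℚ` is the base change of the integral Frey curve. -/
theorem freyCurve_eq_map_int : P.freyCurve = P.freyCurveInt.map (Int.castRingHom ℚ) := by
  have h4 := frey_four_dvd P
  have h16 := frey_sixteen_dvd P
  ext
  · simp [FreyPackage.freyCurve, FreyPackage.freyCurveInt, WeierstrassCurve.map]
  · simp only [FreyPackage.freyCurve, FreyPackage.freyCurveInt, WeierstrassCurve.map,
      eq_intCast]
    rw [Int.cast_div h4 (by norm_num)]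
    push_cast
    ring
  · simp [FreyPackage.freyCurve, FreyPackage.freyCurveInt, WeierstrassCurve.map]
  · simp only [FreyPackage.freyCurve, FreyPackage.freyCurveInt, WeierstrassCurve.map,
      eq_intCast]
    rw [Int.cast_div h16 (by norm_num)]
    push_cast
    ring
  · simp [FreyPackage.freyCurve, FreyPackage.freyCurveInt, WeierstrassCurve.map]

theorem freyCurveInt_Δ_ne_zero : P.freyCurveInt.Δ ≠ 0 := by
  intro h
  apply Fermat.Agent.S13.H891.freyCurve_Δ_ne_zero P
  rw [freyCurve_eq_map_int, WeierstrassCurve.map_Δ, h, _root_.map_zero]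

/-! ### A non-scalar element -/

/-- For the Frey curve, the image of Galois on `E[p]` is not contained in the scalars. -/
theorem frey_nonscalar :
    ∃ h : GQ, ¬ ∃ s : ZMod P.p, ∀ x : Tors P.freyCurve P.p, h • x = s • x := by
  have : Fact P.p.Prime := ⟨P.pp⟩
  by_contra hcon
  push Not at hcon
  obtain ⟨hnt, hfin, -⟩ := Fermat.Agent.S13.H891.T1_frey P
  have hdim : Module.finrank (ZMod P.p) (Tors P.freyCurve P.p) = 2 :=
    finrank_tors P.freyCurve (Fermat.Agent.S13.H891.freyCurve_Δ_ne_zero P) P.p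
  have : Module.Finite (ZMod P.p) (Tors P.freyCurve P.p) := Module.Finite.of_finite
  -- reducible
  have hred : ¬ GaloisRepIsIrreducible (K := AlgebraicClosure ℚ) ℚ P.freyCurve P.p := by
    rintro ⟨-, hirr⟩
    obtain ⟨x, hx⟩ := exists_ne (0 : Tors P.freyCurve P.p)
    have hst : IsGaloisStable (K := AlgebraicClosure ℚ) ℚ
        (Submodule.span (ZMod P.p) {x}) := by
      intro σ y hy
      obtain ⟨s, hs⟩ := hcon σ
      rw [hs y]
      exact Submodule.smul_mem _ _ hy
    rcases hirr _ hst with h | h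
    · rw [Submodule.span_singleton_eq_bot] at h
      exact hx h
    · have h1 := finrank_span_singleton (K := ZMod P.p) hx
      rw [h, finrank_top, hdim] at h1
      omega
  obtain ⟨N, -, -, htop, hco⟩ := Fermat.Agent.S13.result P hred
  -- the action is trivial
  have htriv : ∀ (σ : GQ) (x : Tors P.freyCurve P.p), σ • x = x := by
    intro σ x
    obtain ⟨s, hs⟩ := hcon σ
    by_cases h1 : s = 1
    · rw [hs, h1, one_smul]
    · exfalso
      apply htop
      rw [eq_top_iff]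
      intro y _
      have hy := hco σ y
      rw [hs y] at hy
      have h2 : s • y - y = (s - 1) • y := by rw [sub_smul, one_smul]
      rw [h2] at hy
      have h3 : y = (s - 1)⁻¹ • ((s - 1) • y) := by
        rw [smul_smul, inv_mul_cancel₀ (sub_ne_zero.2 h1), one_smul]
      rw [h3]
      exact Submodule.smul_mem _ _ hy
  obtain ⟨x, hx⟩ := exists_ne (0 : Tors P.freyCurve P.p)
  exact hx (Fermat.Agent.S13.H13.frey_T7 P x fun σ => htriv σ x)

/-! ### `det = cyclotomic` for the Frey curve -/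

/-- Transport along `E = W_ℚ`. -/
theorem det_eq_cycloPow_of_eq_map (E : WeierstrassCurve ℚ) (W : WeierstrassCurve ℤ)
    (hE : E = W.map (Int.castRingHom ℚ)) (p : ℕ) [Fact p.Prime] (hΔ : W.Δ ≠ 0)
    (hns : ∃ h : GQ, ¬ ∃ s : ZMod p, ∀ x : Tors E p, h • x = s • x) (σ : GQ) :
    LinearMap.det (galoisRepModuleEnd (S := ℚ) (K := Qb) E p σ)
      = ((cycloPow p σ : (ZMod p)ˣ) : ZMod p) := by
  subst hE
  exact det_eq_cycloPow W p hΔ hns σ

/-- **`det ρ̄ = χ_p`** for the Frey curve. -/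
theorem frey_det_eq_cycloPow (σ : GQ) :
    haveI : Fact P.p.Prime := ⟨P.pp⟩
    LinearMap.det (galoisRepModuleEnd (S := ℚ) (K := Qb) P.freyCurve P.p σ)
      = ((cycloPow P.p σ : (ZMod P.p)ˣ) : ZMod P.p) :=
  haveI : Fact P.p.Prime := ⟨P.pp⟩
  det_eq_cycloPow_of_eq_map P.freyCurve P.freyCurveInt (freyCurve_eq_map_int P) P.p
    (freyCurveInt_Δ_ne_zero P) (frey_nonscalar P) σ

/-- Elementary form: if `σ ζ = ζ ^ c` for all `p`-th roots of unity then `det (σ | E[p]) = c`. -/
theorem frey_det_eq_of_apply_root (σ : GQ) (c : ℕ)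
    (hc : ∀ ζ : Qb, ζ ^ P.p = 1 → σ ζ = ζ ^ c) :
    LinearMap.det (galoisRepModuleEnd (S := ℚ) (K := Qb) P.freyCurve P.p σ) = (c : ZMod P.p) := by
  have : Fact P.p.Prime := ⟨P.pp⟩
  rw [frey_det_eq_cycloPow P σ]
  exact coe_cycloPow_of_apply_eq_pow P.p σ c (hc _ (zetaBar_spec P.p).pow_eq_one)

/-! ### DETF -/

/-- **(DETF)** The determinant of a Frobenius at `q ≠ p` on `E[p]` is `q`. -/
theorem detFrob : Fermat.Agent.Ribet.Spec.DetFrobStatement := by
  intro P q hq hqp A hA φ hφ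
  apply frey_det_eq_of_apply_root P φ q
  intro ζ hζ
  exact IsFrobeniusAt_apply_root hφ P.hp0
    (Fermat.Agent.S55.Bridge.val_prime_eq_one (A := A) hA hq P.pp hqp) hζ

/-! ### NMT -/

/-- Every `p`-th root of unity is moved by `σ` as `ζ ↦ ζ ^ χ_p(σ)`. -/
theorem apply_root_eq_pow_cycloPow (p : ℕ) [Fact p.Prime] (σ : GQ) (ζ : Qb) (hζ : ζ ^ p = 1) :
    σ ζ = ζ ^ ((cycloPow p σ : (ZMod p)ˣ) : ZMod p).val := by
  have hp : p.Prime := Fact.out
  obtain ⟨i, -, rfl⟩ := (zetaBar_spec p).eq_pow_of_pow_eq_one hζ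
  rw [map_pow, cycloPow_spec, ← pow_mul, ← pow_mul, mul_comm]

/-- The mod-`p` cyclotomic character is ramified at `p` (`p ≥ 3`): no inertia group at `p` acts
trivially on the `p`-th roots of unity. -/
theorem exists_inertia_cycloPow_ne_one (p : ℕ) [Fact p.Prime] (hp2 : p ≠ 2)
    (A : ValuationSubring Qb) (hA : A.LiesOverPrime p) :
    ∃ σ ∈ A.inertiaSubgroupIn ℚ, cycloPow p σ ≠ 1 := by
  have hp : p.Prime := Fact.out
  by_contra hcon
  push Not at hcon
  have hall : ∀ σ : GQ, cycloPow p σ = 1 := by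
    refine Fermat.Agent.S13.H175.minkowski_character (cycloPow p) ⟨{zetaBar p}, ?_⟩ ?_
    · intro σ hσ
      have h1 : σ (zetaBar p) = zetaBar p ^ 1 := by
        rw [pow_one]
        exact hσ _ (Finset.mem_singleton_self _)
      have h2 := coe_cycloPow_of_apply_eq_pow p σ 1 h1
      apply Units.ext
      rw [h2, Nat.cast_one, Units.val_one]
    · intro q hq
      by_cases hqp : q = p
      · subst hqp
        exact ⟨A, hA, hcon⟩
      · obtain ⟨B, hB⟩ := Fermat.Agent.S54.exists_valuationSubring_liesOver q hq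
        refine ⟨B, hB, fun σ hσ => ?_⟩
        have hv := Fermat.Agent.S55.Bridge.val_prime_eq_one (A := B) hB hq hp hqp
        have h1 := inertia_le_fixingSubgroup_cycloLevel p B hv hσ
        rw [mem_fixingSubgroup_cycloLevel_iff] at h1
        have h2 : σ (zetaBar p) = zetaBar p ^ 1 := by rw [pow_one]; exact h1
        have h3 := coe_cycloPow_of_apply_eq_pow p σ 1 h2
        apply Units.ext
        rw [h3, Nat.cast_one, Units.val_one]
  -- a Frobenius at `2` squares the roots of unity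
  obtain ⟨B, hB⟩ := Fermat.Agent.S54.exists_valuationSubring_liesOver 2 Nat.prime_two
  obtain ⟨φ, hφ⟩ := exists_isFrobeniusAt B 2 Nat.prime_two hB
  have hv := Fermat.Agent.S55.Bridge.val_prime_eq_one (A := B) hB Nat.prime_two hp
    (fun h => hp2 h.symm)
  have h1 : φ (zetaBar p) = zetaBar p ^ 2 :=
    IsFrobeniusAt_apply_root hφ hp.ne_zero hv (zetaBar_spec p).pow_eq_one
  have h2 := coe_cycloPow_of_apply_eq_pow p φ 2 h1
  rw [hall φ, Units.val_one] at h2
  have h3 : ((1 : ℕ) : ZMod p) = ((2 : ℕ) : ZMod p) := by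
    rw [Nat.cast_one]; exact h2
  rw [ZMod.natCast_eq_natCast_iff] at h3
  have h4 : p ∣ 2 - 1 := (Nat.modEq_iff_dvd' (by norm_num)).1 h3
  have h5 : p ∣ 1 := by simpa using h4
  exact hp.one_lt.ne' (Nat.dvd_one.1 h5)

/-- **(NMT)** `E[p]` of the Frey curve is not of multiplicative type at `p`. -/
theorem notMultiplicativeType : Fermat.Agent.Ribet.Spec.NotMultiplicativeTypeStatement := by
  intro P A hA H
  have : Fact P.p.Prime := ⟨P.pp⟩
  have hp2 : P.p ≠ 2 := by have := P.hp5; omega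
  obtain ⟨σ, hσ, hne⟩ := exists_inertia_cycloPow_ne_one P.p hp2 A hA
  apply hne
  set c : ℕ := ((cycloPow P.p σ : (ZMod P.p)ˣ) : ZMod P.p).val with hc
  have hroot : ∀ ζ : Qb, ζ ^ P.p = 1 → σ ζ = ζ ^ c :=
    fun ζ hζ => apply_root_eq_pow_cycloPow P.p σ ζ hζ
  have hsc : ∀ x : Tors P.freyCurve P.p, σ • x = c • x := H σ hσ c hroot
  have hdet := frey_det_eq_of_apply_root P σ c hroot
  have hdim : Module.finrank (ZMod P.p) (Tors P.freyCurve P.p) = 2 :=
    finrank_tors P.freyCurve (Fermat.Agent.S13.H891.freyCurve_Δ_ne_zero P) P.p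
  have hend : galoisRepModuleEnd (S := ℚ) (K := Qb) P.freyCurve P.p σ
      = (c : ZMod P.p) • (LinearMap.id : Tors P.freyCurve P.p →ₗ[ZMod P.p] _) := by
    apply LinearMap.ext
    intro x
    rw [galoisRepModuleEnd_apply, hsc x, LinearMap.smul_apply, LinearMap.id_apply,
      Nat.cast_smul_eq_nsmul]
  rw [hend, LinearMap.det_smul, LinearMap.det_id, mul_one, hdim] at hdet
  have hcu : (c : ZMod P.p) = ((cycloPow P.p σ : (ZMod P.p)ˣ) : ZMod P.p) := by
    rw [hc, ZMod.natCast_zmod_val]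
  have hc0 : (c : ZMod P.p) ≠ 0 := by
    rw [hcu]
    exact Units.ne_zero _
  have hc1 : (c : ZMod P.p) = 1 := by
    have h : (c : ZMod P.p) * (c : ZMod P.p) = (c : ZMod P.p) * 1 := by
      rw [mul_one, ← pow_two]
      exact hdet
    exact mul_left_cancel₀ hc0 h
  apply Units.ext
  rw [← hcu, hc1, Units.val_one]

end Fermat.Agent.Ribet.H403
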