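import Fermat.Agent.Ribet.H403.DetLin
import Fermat.Agent.Lib.Cheb.Chebotarev
import Fermat.Agent.Lib.Frob.Glue
import Fermat.Agent.Lib.Frob.A1.Main
import Fermat.Agent.Lib.Frob.A2.Main
import Fermat.Agent.S59.H127.CardTorsion
import Fermat.Agent.S55.H414.CycloPow

/-!
# RIBET / DETF (helper403): `det ρ̄_{E,p} = ` mod-`p` cyclotomic character, without Weil pairing

`W` an integral Weierstrass curve with `Δ ≠ 0`, `E = W_ℚ`, `p` a prime, `V = E[p](ℚ̄)` with the
Prelude Galois action.  If SOME element of `Gal(ℚ̄/ℚ)` does not act on `V` as a scalar, then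
`det (σ | V) = χ_p(σ)` for every `σ`, where `χ_p = cycloPow p` is the mod-`p` cyclotomic character.

Route: every `σ` agrees on `ℚ(E[p], ζ_p)` with a Frobenius element `τ` at a good prime `ℓ ≥ 5`,
`ℓ ≠ p` (landed `Lib.Cheb.chebotarev`); `τ² - a_ℓ τ + ℓ = 0` on `E[p]` (landed `Lib.Frob`) and
`χ_p(τ) = ℓ`; `dim V = 2` (landed `S59/H127`); conclude with `det_eq_of_forall_quadratic`.
-/

set_option autoImplicit false

open WeierstrassCurve WeierstrassCurve.Affine WeierstrassCurve.Affine.Point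

namespace Fermat.Agent.Ribet.H403

/-- `ℚ̄`. -/
abbrev Qb : Type := AlgebraicClosure ℚ

/-- `Gal(ℚ̄/ℚ)`. -/
abbrev GQ : Type := Qb ≃ₐ[ℚ] Qb

/-- `E[n](ℚ̄)` in the exact Prelude shape. -/
abbrev Tors (E : WeierstrassCurve ℚ) (n : ℕ) : Type :=
  Submodule.torsionBy ℤ (E⁄Qb).Point n

section general

variable (E : WeierstrassCurve ℚ)

theorem isElliptic_baseChange (hΔ : E.Δ ≠ 0) : (E⁄Qb).IsElliptic := by
  constructor
  rw [isUnit_iff_ne_zero]
  show (E.map (algebraMap ℚ Qb)).Δ ≠ 0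
  rw [WeierstrassCurve.map_Δ]
  exact (_root_.map_ne_zero _).mpr hΔ

theorem finite_tors (hΔ : E.Δ ≠ 0) (n : ℕ) (hn : 1 ≤ n) : Finite (Tors E n) := by
  have := isElliptic_baseChange E hΔ
  exact Fermat.Agent.S59.H127.finite_torsion (E⁄Qb) n hn

theorem card_tors (hΔ : E.Δ ≠ 0) (n : ℕ) : Nat.card (Tors E n) = n ^ 2 := by
  have := isElliptic_baseChange E hΔ
  exact Fermat.Agent.S59.H127.card_torsion_eq (E⁄Qb) n

theorem finrank_tors (hΔ : E.Δ ≠ 0) (p : ℕ) [Fact p.Prime] :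
    Module.finrank (ZMod p) (Tors E p) = 2 := by
  have hp : p.Prime := Fact.out
  have := finite_tors E hΔ p hp.one_lt.le
  have : Module.Finite (ZMod p) (Tors E p) := Module.Finite.of_finite
  have h := Module.natCard_eq_pow_finrank (K := ZMod p) (V := Tors E p)
  rw [Nat.card_zmod, card_tors E hΔ] at h
  exact (Nat.pow_right_injective hp.two_le h).symm

/-- A finite set of coordinates controlling the Galois action on `E[n]`. -/
theorem exists_finset_coords (n : ℕ) (hfin : Finite (Tors E n)) :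
    ∃ s : Finset Qb, ∀ σ τ : GQ, (∀ x ∈ s, τ x = σ x) → ∀ v : Tors E n, τ • v = σ • v := by
  classical
  have := Fintype.ofFinite (Tors E n)
  let coords : (E⁄Qb).Point → Finset Qb :=
    fun Q => match Q with
      | .zero => ∅
      | .some x y _ => {x, y}
  refine ⟨Finset.univ.biUnion fun v : Tors E n => coords v.1, fun σ τ hσ v => ?_⟩
  have hv : ∀ x ∈ coords v.1, τ x = σ x := fun x hx =>
    hσ x (Finset.mem_biUnion.2 ⟨v, Finset.mem_univ _, hx⟩)
  apply Subtype.ext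
  change Point.map τ.toAlgHom v.1 = Point.map σ.toAlgHom v.1
  rcases hQ : v.1 with _ | ⟨x, y, h⟩
  · rfl
  · rw [hQ] at hv
    have hx : τ x = σ x := hv x (by simp [coords])
    have hy : τ y = σ y := hv y (by simp [coords])
    rw [Point.map_some, Point.map_some]
    simp only [Point.some.injEq]
    exact ⟨hx, hy⟩

end general

section integral

variable (W : WeierstrassCurve ℤ) (p : ℕ) [Fact p.Prime]

/-- **Quadratic relation.**  Every `σ ∈ Gal(ℚ̄/ℚ)` satisfies `σ² - a σ + χ_p(σ) = 0` on `E[p]`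
for some `a ∈ 𝔽_p`. -/
theorem exists_quadratic_rel (hΔ : W.Δ ≠ 0) (σ : GQ) :
    ∃ a : ZMod p, ∀ x : Tors (W.map (Int.castRingHom ℚ)) p,
      σ • (σ • x) - a • (σ • x)
        + ((Fermat.Agent.S55.H414.cycloPow p σ : (ZMod p)ˣ) : ZMod p) • x = 0 := by
  classical
  have hp : p.Prime := Fact.out
  have hΔQ : (W.map (Int.castRingHom ℚ)).Δ ≠ 0 := by
    rw [WeierstrassCurve.map_Δ]
    simpa using hΔ
  have hfin := finite_tors (W.map (Int.castRingHom ℚ)) hΔQ p hp.one_lt.le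
  obtain ⟨s, hs⟩ := exists_finset_coords (W.map (Int.castRingHom ℚ)) p hfin
  -- the finite level
  set ζ := Fermat.Agent.S55.H414.zetaBar p with hζ
  let T : Set Qb := (↑(insert ζ s) : Set Qb)
  have hfd : FiniteDimensional ℚ (IntermediateField.adjoin ℚ T) :=
    IntermediateField.finiteDimensional_adjoin
      (fun x _ => (AlgebraicClosure.isAlgebraic ℚ).isIntegral.isIntegral x)
  -- Chebotarev
  obtain ⟨ℓ, A, τ, hℓ, hℓS, hA, hτ, -, hτσ⟩ :=
    Fermat.Agent.Lib.Cheb.chebotarev (IntermediateField.adjoin ℚ T) hfd σ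
      (insert 2 (insert 3 (insert p W.Δ.natAbs.primeFactors)))
  have hℓ2 : ℓ ≠ 2 := fun h => hℓS (by rw [h]; simp)
  have hℓ3 : ℓ ≠ 3 := fun h => hℓS (by rw [h]; simp)
  have hℓp : ℓ ≠ p := fun h => hℓS (by rw [h]; simp)
  have hℓΔ : ℓ ∉ W.Δ.natAbs.primeFactors := fun h => hℓS (by simp [h])
  have h5 : 5 ≤ ℓ := by
    have h2 := hℓ.two_le
    by_contra hlt
    have h4 : ℓ = 4 := by omega
    rw [h4] at hℓ
    exact absurd hℓ (by decide)
  have hgood : W.IsGoodPrimeFor ℓ := by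
    intro hdvd
    apply hℓΔ
    rw [Nat.mem_primeFactors]
    refine ⟨hℓ, ?_, ?_⟩
    · exact Int.natCast_dvd.mp hdvd
    · simpa using hΔ
  have hℓnp : ¬ ℓ ∣ p := by
    intro h
    rcases (Nat.dvd_prime hp).1 h with h1 | h1
    · exact hℓ.one_lt.ne' h1
    · exact hℓp h1
  -- agreement of `τ` and `σ`
  have hagree : ∀ x ∈ s, τ x = σ x := fun x hx =>
    hτσ x (IntermediateField.subset_adjoin ℚ T (by simp [T, hx]))
  have hact : ∀ v : Tors (W.map (Int.castRingHom ℚ)) p, τ • v = σ • v := hs σ τ hagree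
  have hζT : ζ ∈ IntermediateField.adjoin ℚ T :=
    IntermediateField.subset_adjoin ℚ T (by simp [T])
  -- the cyclotomic character
  have hpv : A.valuation ((p : ℕ) : Qb) = 1 :=
    Fermat.Agent.S55.Bridge.val_prime_eq_one (A := A) hA hℓ hp hℓp
  have hζp : ζ ^ p = 1 := (Fermat.Agent.S55.H414.zetaBar_spec p).pow_eq_one
  have hτζ : τ ζ = ζ ^ ℓ :=
    Fermat.Agent.S55.H414.IsFrobeniusAt_apply_root hτ hp.ne_zero hpv hζp
  have hσζ : σ ζ = ζ ^ ℓ := by rw [← hτσ ζ hζT, hτζ]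
  have hχ : ((Fermat.Agent.S55.H414.cycloPow p σ : (ZMod p)ˣ) : ZMod p) = (ℓ : ZMod p) :=
    Fermat.Agent.S55.H414.coe_cycloPow_of_apply_eq_pow p σ ℓ hσζ
  -- the Frobenius relation
  have hrel := Fermat.Agent.Lib.Frob.frobRelation_of_parts Fermat.Agent.Lib.Frob.frobRelationFin
    Fermat.Agent.Lib.Frob.reductionData W ℓ hℓ h5 hgood A τ hA hτ p hp.pos hℓnp
  refine ⟨((W.apOfModel ℓ : ℤ) : ZMod p), fun x => ?_⟩
  have hx : (p : ℕ) • (x : ((W.map (Int.castRingHom ℚ))⁄Qb).Point) = 0 := by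
    have := x.2
    rw [Submodule.mem_torsionBy_iff] at this
    rw [← natCast_zsmul]
    exact this
  have h1 := hrel x.1 hx
  rw [hχ, ← hact x, ← hact (τ • x)]
  apply Subtype.ext
  rw [Int.cast_smul_eq_zsmul, Nat.cast_smul_eq_nsmul]
  rw [← natCast_zsmul]
  exact h1


/-- **`det = cyclotomic`** for an integral Weierstrass curve whose mod-`p` image contains a
non-scalar element. -/
theorem det_eq_cycloPow (hΔ : W.Δ ≠ 0)
    (hns : ∃ h : GQ, ¬ ∃ s : ZMod p, ∀ x : Tors (W.map (Int.castRingHom ℚ)) p, h • x = s • x)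
    (σ : GQ) :
    LinearMap.det (galoisRepModuleEnd (S := ℚ) (K := Qb) (W.map (Int.castRingHom ℚ)) p σ)
      = ((Fermat.Agent.S55.H414.cycloPow p σ : (ZMod p)ˣ) : ZMod p) := by
  have hp : p.Prime := Fact.out
  have hΔQ : (W.map (Int.castRingHom ℚ)).Δ ≠ 0 := by
    rw [WeierstrassCurve.map_Δ]
    simpa using hΔ
  have hfin := finite_tors (W.map (Int.castRingHom ℚ)) hΔQ p hp.one_lt.le
  have : Module.Finite (ZMod p) (Tors (W.map (Int.castRingHom ℚ)) p) := Module.Finite.of_finite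
  exact det_eq_of_forall_quadratic (finrank_tors (W.map (Int.castRingHom ℚ)) hΔQ p)
    (galoisRepModuleEnd (S := ℚ) (K := Qb) (W.map (Int.castRingHom ℚ)) p)
    (Fermat.Agent.S55.H414.cycloPow p)
    (fun g => exists_quadratic_rel W p hΔ g) hns σ

/-- The same in elementary form: if `σ` raises the `p`-th roots of unity to the `c`-th power then
`det (σ | E[p]) = c`. -/
theorem det_eq_of_apply_root (hΔ : W.Δ ≠ 0)
    (hns : ∃ h : GQ, ¬ ∃ s : ZMod p, ∀ x : Tors (W.map (Int.castRingHom ℚ)) p, h • x = s • x)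
    (σ : GQ) (c : ℕ) (hc : ∀ ζ : Qb, ζ ^ p = 1 → σ ζ = ζ ^ c) :
    LinearMap.det (galoisRepModuleEnd (S := ℚ) (K := Qb) (W.map (Int.castRingHom ℚ)) p σ)
      = (c : ZMod p) := by
  rw [det_eq_cycloPow W p hΔ hns σ]
  exact Fermat.Agent.S55.H414.coe_cycloPow_of_apply_eq_pow p σ c
    (hc _ (Fermat.Agent.S55.H414.zetaBar_spec p).pow_eq_one)

end integral

end Fermat.Agent.Ribet.H403
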