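import Fermat.Agent.Ribet.H403.NodeSlope
import Fermat.Agent.Ribet.H704.I6Spec
import Fermat.Agent.A2.H852.ThicknessNode

/-!
# RIBET row 38, wall-p crux (I6), leaf NODE: `nodeRel_403 : H704.I6.NodeRelStatement`

Adapter from the thick-node form of the node-slope relation (`NodeSlope.lean`,
`node_slope_modEq_403`, `node_slope_eq_403`: `X * Y = ε * π ^ n`) to the frozen thickness-free
unit-pair form of `Fermat/Agent/Ribet/H704/I6Spec.lean`: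

* `H704.I6.IsNode` gives the two discrete valuation rings `R ⧸ 𝔭ᵢ`, `𝔪 = (x, y, π)`;
* `A2.H852.node_normal_form_exact` (unit pair `D * D' = π ^ N`) gives new coordinates
  `S' ≡ x`, `T' ≡ y (mod π)` with `S' * T' = π ^ (t + 1) * unit`;
* `node_slope_eq_403` for the vertical function `D` gives `(t + 1) * k = N`, so the thickness
  `t + 1` divides `N` and is prime to `m`;
* `node_slope_modEq_403` for `a` gives `(t + 1) * s ≡ n₁ (mod m)`; multiply by `k`.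

Results: `nodeRel_403 : NodeRelStatement`, `nodeRelExact_403 : NodeRelExactStatement`.
-/

set_option autoImplicit false

namespace Fermat.Agent.Ribet.H403

open IsLocalRing Fermat.Agent.Ribet.H704.I6

section adapter

variable {R : Type*} [CommRing R] [IsLocalRing R]

/-- In a local ring, a lift of a unit of a quotient by a proper ideal is a unit. -/
theorem isUnit_of_isUnit_mk_403 (I : Ideal R) (hI : I ≠ ⊤) {a : R}
    (h : IsUnit (Ideal.Quotient.mk I a)) : IsUnit a := by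
  by_contra ha
  have ha' : a ∈ maximalIdeal R := (IsLocalRing.mem_maximalIdeal a).mpr ha
  obtain ⟨b, hb⟩ := h.exists_right_inv
  obtain ⟨b', rfl⟩ := Ideal.Quotient.mk_surjective b
  rw [← map_mul, ← map_one (Ideal.Quotient.mk I), Ideal.Quotient.eq] at hb
  have h1 : a * b' - 1 ∈ maximalIdeal R := IsLocalRing.le_maximalIdeal hI hb
  have h2 : a * b' ∈ maximalIdeal R := Ideal.mul_mem_right _ _ ha'
  have h3 : (1 : R) ∈ maximalIdeal R := by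
    have : (1 : R) = a * b' - (a * b' - 1) := by ring
    rw [this]
    exact Ideal.sub_mem _ h2 h1
  exact (IsLocalRing.maximalIdeal.isMaximal R).ne_top ((Ideal.eq_top_iff_one _).mpr h3)

omit [IsLocalRing R] in
/-- The branch uniformiser of an `H704.I6.IsNode` is irreducible modulo the branch. -/
theorem irreducible_mk_of_unif_403 (𝔭 : Ideal R) [𝔭.IsPrime] {x : R} (hx : x ∉ 𝔭)
    (hnu : ¬ IsUnit (Ideal.Quotient.mk 𝔭 x))
    (hunif : ∀ a : R, a ∉ 𝔭 → ∃ s : ℕ, OrdOn 𝔭 x a s) :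
    Irreducible (Ideal.Quotient.mk 𝔭 x) := by
  have hx0 : Ideal.Quotient.mk 𝔭 x ≠ 0 := by
    rwa [Ne, Ideal.Quotient.eq_zero_iff_mem]
  refine ⟨hnu, ?_⟩
  intro a b hab
  obtain ⟨a', rfl⟩ := Ideal.Quotient.mk_surjective a
  obtain ⟨b', rfl⟩ := Ideal.Quotient.mk_surjective b
  have ha0 : a' ∉ 𝔭 := by
    intro h
    apply hx0
    rw [hab, Ideal.Quotient.eq_zero_iff_mem.mpr h, zero_mul]
  have hb0 : b' ∉ 𝔭 := by
    intro h
    apply hx0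
    rw [hab, Ideal.Quotient.eq_zero_iff_mem.mpr h, mul_zero]
  obtain ⟨i, hi⟩ := hunif a' ha0
  obtain ⟨j, hj⟩ := hunif b' hb0
  unfold OrdOn at hi hj
  rcases Nat.eq_zero_or_pos i with h0 | hipos
  · left
    rw [h0, pow_zero] at hi
    exact associated_one_iff_isUnit.mp hi
  rcases Nat.eq_zero_or_pos j with h0 | hjpos
  · right
    rw [h0, pow_zero] at hj
    exact associated_one_iff_isUnit.mp hj
  exfalso
  obtain ⟨u, hu⟩ := hi.mul_mul hj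
  rw [← hab] at hu
  have h2 : (Ideal.Quotient.mk 𝔭 x) ^ i * (Ideal.Quotient.mk 𝔭 x) ^ j
      = Ideal.Quotient.mk 𝔭 x * (Ideal.Quotient.mk 𝔭 x) ^ (i + j - 1) := by
    rw [← pow_add, ← pow_succ']
    congr 1
    omega
  rw [h2] at hu
  have h3 : (u : R ⧸ 𝔭) = (Ideal.Quotient.mk 𝔭 x) ^ (i + j - 1) := mul_left_cancel₀ hx0 hu
  have h4 : IsUnit ((Ideal.Quotient.mk 𝔭 x) ^ (i + j - 1)) := h3 ▸ u.isUnit
  exact hnu ((isUnit_pow_iff (by omega)).mp h4)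

omit [IsLocalRing R] in
/-- The branches of an `H704.I6.IsNode` are discrete valuation rings. -/
theorem isDVR_of_unif_403 (𝔭 : Ideal R) [𝔭.IsPrime] {x : R} (hx : x ∉ 𝔭)
    (hnu : ¬ IsUnit (Ideal.Quotient.mk 𝔭 x))
    (hunif : ∀ a : R, a ∉ 𝔭 → ∃ s : ℕ, OrdOn 𝔭 x a s) :
    IsDiscreteValuationRing (R ⧸ 𝔭) := by
  apply IsDiscreteValuationRing.ofHasUnitMulPowIrreducibleFactorization
  refine ⟨Ideal.Quotient.mk 𝔭 x, irreducible_mk_of_unif_403 𝔭 hx hnu hunif, ?_⟩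
  intro z hz
  obtain ⟨a, rfl⟩ := Ideal.Quotient.mk_surjective z
  obtain ⟨s, hs⟩ := hunif a (by rwa [Ne, Ideal.Quotient.eq_zero_iff_mem] at hz)
  exact ⟨s, hs.symm⟩

/-- One branch of a node is generated by the uniformiser of the other branch and `π`. -/
theorem mem_span_pair_of_unif_403 (𝔭₁ 𝔭₂ : Ideal R) [𝔭₁.IsPrime] [𝔭₂.IsPrime] {π x : R}
    (hinf : 𝔭₁ ⊓ 𝔭₂ = Ideal.span {π}) (hx : x ∈ 𝔭₂)
    (hunif : ∀ a : R, a ∉ 𝔭₁ → ∃ s : ℕ, OrdOn 𝔭₁ x a s) {b : R} (hb : b ∈ 𝔭₂) :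
    b ∈ Ideal.span ({x, π} : Set R) := by
  have hπmem : π ∈ Ideal.span ({x, π} : Set R) := Ideal.subset_span (by simp)
  have hxmem : x ∈ Ideal.span ({x, π} : Set R) := Ideal.subset_span (by simp)
  have hle : 𝔭₁ ⊓ 𝔭₂ ≤ Ideal.span ({x, π} : Set R) := by
    rw [hinf, Ideal.span_le, Set.singleton_subset_iff]
    exact hπmem
  by_cases hb₁ : b ∈ 𝔭₁
  · exact hle ⟨hb₁, hb⟩
  obtain ⟨s, hs⟩ := hunif b hb₁
  unfold OrdOn at hs
  rcases Nat.eq_zero_or_pos s with h0 | hspos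
  · exfalso
    rw [h0, pow_zero] at hs
    have hbu : IsUnit b :=
      isUnit_of_isUnit_mk_403 𝔭₁ (Ideal.IsPrime.ne_top ‹_›) (associated_one_iff_isUnit.mp hs)
    exact (Ideal.IsPrime.ne_top ‹𝔭₂.IsPrime›) (Ideal.eq_top_of_isUnit_mem _ hb hbu)
  obtain ⟨u, hu⟩ := hs.symm
  -- `mk b = mk x ^ s * u`
  obtain ⟨r, hr⟩ := Ideal.Quotient.mk_surjective
    ((Ideal.Quotient.mk 𝔭₁ x) ^ (s - 1) * (u : R ⧸ 𝔭₁))
  have h1 : Ideal.Quotient.mk 𝔭₁ b = Ideal.Quotient.mk 𝔭₁ (x * r) := by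
    rw [map_mul, hr, ← hu, ← mul_assoc, ← pow_succ']
    congr 2
    omega
  have h2 : b - x * r ∈ 𝔭₁ := Ideal.Quotient.eq.mp h1
  have h3 : b - x * r ∈ 𝔭₂ := Ideal.sub_mem _ hb (Ideal.mul_mem_right _ _ hx)
  have h4 : b - x * r ∈ Ideal.span ({x, π} : Set R) := hle ⟨h2, h3⟩
  have : b = (b - x * r) + x * r := by ring
  rw [this]
  exact Ideal.add_mem _ h4 (Ideal.mul_mem_right _ _ hxmem)

/-- The maximal ideal of a node ring is `(x, y, π)`. -/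
theorem maximalIdeal_eq_span_of_isNode_403 {𝔭₁ 𝔭₂ : Ideal R} {π x y : R}
    (h : IsNode 𝔭₁ 𝔭₂ π x y) : maximalIdeal R = Ideal.span ({x, y, π} : Set R) := by
  have := h.prime₁
  have := h.prime₂
  apply le_antisymm
  · rw [← h.sup_eq]
    apply sup_le
    · intro b hb
      have h1 := mem_span_pair_of_unif_403 𝔭₂ 𝔭₁ (π := π) (x := y)
        (by rw [inf_comm]; exact h.inf_eq) h.hy h.unif₂ hb
      refine Ideal.span_mono ?_ h1
      intro z hz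
      simp only [Set.mem_insert_iff, Set.mem_singleton_iff] at hz ⊢
      tauto
    · intro b hb
      have h1 := mem_span_pair_of_unif_403 𝔭₁ 𝔭₂ (π := π) (x := x) h.inf_eq h.hx h.unif₁ hb
      refine Ideal.span_mono ?_ h1
      intro z hz
      simp only [Set.mem_insert_iff, Set.mem_singleton_iff] at hz ⊢
      tauto
  · rw [Ideal.span_le]
    have hπ : π ∈ 𝔭₁ ⊓ 𝔭₂ := h.inf_eq ▸ Ideal.mem_span_singleton_self π
    intro z hz
    simp only [Set.mem_insert_iff, Set.mem_singleton_iff] at hz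
    rcases hz with rfl | rfl | rfl
    · exact IsLocalRing.le_maximalIdeal (Ideal.IsPrime.ne_top ‹𝔭₂.IsPrime›) h.hx
    · exact IsLocalRing.le_maximalIdeal (Ideal.IsPrime.ne_top ‹𝔭₁.IsPrime›) h.hy
    · exact IsLocalRing.le_maximalIdeal (Ideal.IsPrime.ne_top ‹𝔭₁.IsPrime›) hπ.1

omit [IsLocalRing R] in
/-- `OrdOn` in the unit form used by `NodeSlope.lean`. -/
theorem ordOn_unit_form_403 (𝔭 : Ideal R) {ϖ ϖ' a : R} {s : ℕ} (h : OrdOn 𝔭 ϖ a s)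
    (hϖ : Ideal.Quotient.mk 𝔭 ϖ' = Ideal.Quotient.mk 𝔭 ϖ) :
    ∃ ε' : (R ⧸ 𝔭)ˣ, Ideal.Quotient.mk 𝔭 a = ε' * (Ideal.Quotient.mk 𝔭 ϖ') ^ s := by
  obtain ⟨u, hu⟩ := h.symm
  exact ⟨u, by rw [hϖ, ← hu, mul_comm]⟩

end adapter

section main

variable {R : Type*} [CommRing R] [IsDomain R] [IsIntegrallyClosed R] [IsNoetherianRing R]
  [IsLocalRing R]

/-- Thick normal form of an `H704.I6.IsNode` with a unit pair: the data needed by
`node_slope_modEq_403` / `node_slope_eq_403`, on both branches, together with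
`thickness * ord₁(D) = N`. -/
theorem exists_thick_form_403 {𝔭₁ 𝔭₂ : Ideal R} {π x y : R} (hnode : IsNode 𝔭₁ 𝔭₂ π x y)
    [𝔭₁.IsPrime] [𝔭₂.IsPrime]
    [IsDiscreteValuationRing (R ⧸ 𝔭₁)] [IsDiscreteValuationRing (R ⧸ 𝔭₂)]
    {N : ℕ} (hN : 0 < N) {D D' : R} (hDD : IsUnitPair 𝔭₁ 𝔭₂ π D D' N) {k : ℕ}
    (hk : OrdOn 𝔭₁ x D k) :
    ∃ (S' T' G' : R) (n : ℕ), π ≠ 0 ∧ IsUnit G' ∧ S' * T' = G' * π ^ n ∧
      Ideal.Quotient.mk 𝔭₁ S' = Ideal.Quotient.mk 𝔭₁ x ∧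
      Ideal.Quotient.mk 𝔭₂ T' = Ideal.Quotient.mk 𝔭₂ y ∧
      S' ∈ 𝔭₂ ∧ T' ∈ 𝔭₁ ∧ n * k = N := by
  have hπmem : π ∈ 𝔭₁ ⊓ 𝔭₂ := hnode.inf_eq ▸ Ideal.mem_span_singleton_self π
  have hπ₁ : π ∈ 𝔭₁ := hπmem.1
  have hπ₂ : π ∈ 𝔭₂ := hπmem.2
  have hπ0 : π ≠ 0 := by
    rintro rfl
    have h0 := hDD.mul_eq
    rw [zero_pow hN.ne'] at h0
    rcases mul_eq_zero.mp h0 with h | h
    · exact hDD.hD (h ▸ 𝔭₁.zero_mem)
    · exact hDD.hD' (h ▸ 𝔭₂.zero_mem)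
  have hcap : ∀ z, z ∈ 𝔭₁ → z ∈ 𝔭₂ → π ∣ z := by
    intro z h1 h2
    have : z ∈ 𝔭₁ ⊓ 𝔭₂ := ⟨h1, h2⟩
    rw [hnode.inf_eq] at this
    exact Ideal.mem_span_singleton.mp this
  obtain ⟨G, hG⟩ : π ∣ x * y :=
    hcap _ (Ideal.mul_mem_left _ _ hnode.hy) (Ideal.mul_mem_right _ _ hnode.hx)
  -- the unit `ε` with `D ≡ ε x ^ k (mod 𝔭₁)`
  obtain ⟨ε', hε'⟩ := ordOn_unit_form_403 𝔭₁ hk rfl
  obtain ⟨e, he⟩ := Ideal.Quotient.mk_surjective ((ε' : (R ⧸ 𝔭₁)ˣ) : R ⧸ 𝔭₁)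
  have heu : IsUnit e :=
    isUnit_of_isUnit_mk_403 𝔭₁ (Ideal.IsPrime.ne_top ‹_›) (he ▸ ε'.isUnit)
  have hDS : D - e * x ^ k ∈ 𝔭₁ := by
    rw [← Ideal.Quotient.eq, map_mul, map_pow, he, hε']
  obtain ⟨S', T', G', ⟨β, hβ⟩, ⟨α, hα⟩, -, t, -, hprod, hG'⟩ :=
    Fermat.Agent.A2.H852.node_normal_form_exact 𝔭₁ 𝔭₂ π x y G D D' e N k hπ0 hπ₁ hπ₂ hcap
      (maximalIdeal_eq_span_of_isNode_403 hnode) hnode.hx₁ hnode.hy₂ hG hN hDD.mul_eq hDD.hD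
      hDD.hD' heu hDS
  have hS₁ : Ideal.Quotient.mk 𝔭₁ S' = Ideal.Quotient.mk 𝔭₁ x := by
    rw [Ideal.Quotient.eq, hβ]
    have : x - π * β - x = -(π * β) := by ring
    rw [this]
    exact neg_mem (Ideal.mul_mem_right _ _ hπ₁)
  have hT₂ : Ideal.Quotient.mk 𝔭₂ T' = Ideal.Quotient.mk 𝔭₂ y := by
    rw [Ideal.Quotient.eq, hα]
    have : y - π * α - y = -(π * α) := by ring
    rw [this]
    exact neg_mem (Ideal.mul_mem_right _ _ hπ₂)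
  have hS₂ : S' ∈ 𝔭₂ := by
    rw [hβ]
    exact Ideal.sub_mem _ hnode.hx (Ideal.mul_mem_right _ _ hπ₂)
  have hT₁ : T' ∈ 𝔭₁ := by
    rw [hα]
    exact Ideal.sub_mem _ hnode.hy (Ideal.mul_mem_right _ _ hπ₁)
  have hprod' : S' * T' = G' * π ^ (t + 1) := by rw [hprod, mul_comm]
  have hirr₁ : Irreducible (Ideal.Quotient.mk 𝔭₁ S') := by
    rw [hS₁]
    exact irreducible_mk_of_unif_403 𝔭₁ hnode.hx₁ hnode.nonunit₁ hnode.unif₁
  have hirr₂ : Irreducible (Ideal.Quotient.mk 𝔭₂ T') := by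
    rw [hT₂]
    exact irreducible_mk_of_unif_403 𝔭₂ hnode.hy₂ hnode.nonunit₂ hnode.unif₂
  refine ⟨S', T', G', t + 1, hπ0, hG', hprod', hS₁, hT₂, hS₂, hT₁, ?_⟩
  -- the vertical function `D`: `(t + 1) * k = N`
  obtain ⟨ε₁, hε₁⟩ := ordOn_unit_form_403 𝔭₁ hk hS₁
  refine node_slope_eq_403 𝔭₂ 𝔭₁ hπ0 (by rw [inf_comm]; exact hnode.inf_eq.symm) hirr₁ hT₁ hirr₂
    hG' hprod' hε₁ ?_ (σ₀ := D') (τ₀ := 1) hDD.hD' ?_ ?_
  · intro P hP hDP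
    have h1 : π ^ N ∈ P := by
      rw [← hDD.mul_eq]
      exact Ideal.mul_mem_right _ _ hDP
    exact hP.mem_of_pow_mem N h1
  · exact fun h => (Ideal.IsPrime.ne_top ‹𝔭₂.IsPrime›) ((Ideal.eq_top_iff_one _).mpr h)
  · rw [mul_comm, hDD.mul_eq, one_mul]

/-- **NODE** (leaf of the I6 package, `Fermat/Agent/Ribet/H704/I6Spec.lean`). -/
theorem nodeRel_403 : NodeRelStatement := by
  intro R _ _ _ _ _ 𝔭₁ 𝔭₂ π x y hnode m N hm hNm D D' hDD a c d n₁ ha₂ hc₁ hd₁ had hdiv s k hs hk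
  rcases Nat.eq_zero_or_pos N with hN | hN
  · subst hN
    have hm1 : m = 1 := by simpa using hNm
    subst hm1
    simp
  have := hnode.prime₁
  have := hnode.prime₂
  have : IsDiscreteValuationRing (R ⧸ 𝔭₁) :=
    isDVR_of_unif_403 𝔭₁ hnode.hx₁ hnode.nonunit₁ hnode.unif₁
  have : IsDiscreteValuationRing (R ⧸ 𝔭₂) :=
    isDVR_of_unif_403 𝔭₂ hnode.hy₂ hnode.nonunit₂ hnode.unif₂
  obtain ⟨S', T', G', n, hπ0, hG', hprod, hS₁, hT₂, hS₂, hT₁, hnk⟩ :=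
    exists_thick_form_403 hnode hN hDD hk
  have hirr₁ : Irreducible (Ideal.Quotient.mk 𝔭₁ S') := by
    rw [hS₁]
    exact irreducible_mk_of_unif_403 𝔭₁ hnode.hx₁ hnode.nonunit₁ hnode.unif₁
  have hirr₂ : Irreducible (Ideal.Quotient.mk 𝔭₂ T') := by
    rw [hT₂]
    exact irreducible_mk_of_unif_403 𝔭₂ hnode.hy₂ hnode.nonunit₂ hnode.unif₂
  have hnm : Nat.Coprime n m := Nat.Coprime.coprime_dvd_left ⟨k, hnk.symm⟩ hNm
  obtain ⟨ε₂, hε₂⟩ := ordOn_unit_form_403 𝔭₂ hs hT₂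
  have hcore := node_slope_modEq_403 𝔭₁ 𝔭₂ hπ0 hnode.inf_eq.symm hirr₂ hS₂ hirr₁ hG'
    (by rw [mul_comm, hprod]) hε₂ (Nat.pos_of_ne_zero hm) hnm
    (fun P hP haP hπP => by
      obtain ⟨f, r, hr, hf⟩ := hdiv P hP haP hπP
      exact ⟨f, r, hr, by rw [hf, mul_comm]⟩)
    (σ₀ := d) (τ₀ := c) (c := n₁) hd₁ hc₁ (by rw [mul_comm d, had, mul_comm])
  rw [Int.modEq_iff_dvd] at hcore
  obtain ⟨w, hw⟩ := hcore
  refine ⟨-(k : ℤ) * w, ?_⟩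
  have hN' : (N : ℤ) = (n : ℤ) * k := by exact_mod_cast hnk.symm
  push_cast at hw
  rw [hN']
  linear_combination (-(k : ℤ)) * hw

/-- **NODE, exact form** (function without horizontal zeros). -/
theorem nodeRelExact_403 : NodeRelExactStatement := by
  intro R _ _ _ _ _ 𝔭₁ 𝔭₂ π x y hnode N D D' hN hDD a c d n₁ ha₂ hc₁ hd₁ had hv s k hs hk
  have := hnode.prime₁
  have := hnode.prime₂
  have : IsDiscreteValuationRing (R ⧸ 𝔭₁) :=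
    isDVR_of_unif_403 𝔭₁ hnode.hx₁ hnode.nonunit₁ hnode.unif₁
  have : IsDiscreteValuationRing (R ⧸ 𝔭₂) :=
    isDVR_of_unif_403 𝔭₂ hnode.hy₂ hnode.nonunit₂ hnode.unif₂
  obtain ⟨S', T', G', n, hπ0, hG', hprod, hS₁, hT₂, hS₂, hT₁, hnk⟩ :=
    exists_thick_form_403 hnode hN hDD hk
  have hirr₁ : Irreducible (Ideal.Quotient.mk 𝔭₁ S') := by
    rw [hS₁]
    exact irreducible_mk_of_unif_403 𝔭₁ hnode.hx₁ hnode.nonunit₁ hnode.unif₁
  have hirr₂ : Irreducible (Ideal.Quotient.mk 𝔭₂ T') := by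
    rw [hT₂]
    exact irreducible_mk_of_unif_403 𝔭₂ hnode.hy₂ hnode.nonunit₂ hnode.unif₂
  obtain ⟨ε₂, hε₂⟩ := ordOn_unit_form_403 𝔭₂ hs hT₂
  have hcore : n * s = n₁ := node_slope_eq_403 𝔭₁ 𝔭₂ hπ0 hnode.inf_eq.symm hirr₂ hS₂ hirr₁ hG'
    (by rw [mul_comm, hprod]) hε₂ hv
    (σ₀ := d) (τ₀ := c) (c := n₁) hd₁ hc₁ (by rw [mul_comm d, had, mul_comm])
  rw [← hnk, ← hcore]
  ring

end main

end Fermat.Agent.Ribet.H403
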