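import Fermat.Agent.Ribet.H463.NodeAdapter
import Fermat.Agent.Ribet.H704.I6Inst

/-!
# RIBET row 38, wall-p crux (I6), leaf NODE-V:
# `nodeRelVal_403 : H704.I6.NodeRelValStatement`

The node relation in fraction form with horizontal divisibility in VALUATION form
(`H704.I6.HorDivVal`, `Fermat/Agent/Ribet/H704/I6Inst.lean`).  The valuation form is literally the
hypothesis `hdiv` of `H463.IsNode463.dvd_slope_right`, so this is the proof of
`H463.nodeRelFrac` without the conversion `hdiv_of_horDivFrac463`.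
-/

set_option autoImplicit false

namespace Fermat.Agent.Ribet.H403

open Fermat.Agent.Ribet.H704 Fermat.Agent.Ribet.H463

/-- **NODE-V** (leaf of the I6 package, `Fermat/Agent/Ribet/H704/I6Inst.lean`). -/
theorem nodeRelVal_403 : I6.NodeRelValStatement := by
  intro R K _ _ _ _ _ _ _ _ 𝔭₁ 𝔭₂ π x y hnode m N hm hcop D D' hDD u _ hHor v₁ v₂ s k hv₁ hv₂ hs hk
  have := hnode.prime₁
  have := hnode.prime₂
  have : IsDiscreteValuationRing (R ⧸ 𝔭₁) := I6_isDVR₁ hnode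
  have : IsDiscreteValuationRing (R ⧸ 𝔭₂) := I6_isDVR₂ hnode
  rcases Nat.eq_zero_or_pos N with rfl | hN
  · have hm1 : m = 1 := by simpa using hcop
    subst hm1
    rw [Nat.cast_one]
    exact one_dvd _
  obtain ⟨x', y', n, h463, hx', hy'⟩ := exists_isNode463 hnode hN hDD hk
  obtain ⟨εD, hεD⟩ := ordOn_eq463 hk
  have hNnk : N = n * k :=
    h463.thickness_mul_ord hDD.mul_eq hDD.hD hDD.hD' (ε := εD) (by rw [hx']; exact hεD)
  have hπ0 := h463.pi_ne_zero
  obtain ⟨v, a, b, i, j, ha, hb, hab, hi, hj, hsij⟩ := hs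
  have hvv : v = v₂ := valAt_unique463 h463.pi_mem_right hπ0 ⟨a, b, ha, hb, hab⟩ hv₂
  subst hvv
  obtain ⟨a₁, b₁, ha₁, hb₁, hab₁⟩ := hv₁
  obtain ⟨εa, hεa⟩ := ordOn_eq463 hi
  obtain ⟨εb, hεb⟩ := ordOn_eq463 hj
  have key := h463.dvd_slope_right hm hHor ha₁ hb₁ ha hb hab₁ hab (εa := εa) (εb := εb)
    (by rw [hy']; exact hεa) (by rw [hy']; exact hεb)
  have hcopn : Nat.Coprime m n :=
    (Nat.Coprime.coprime_dvd_left ⟨k, hNnk⟩ hcop).symm
  have hcop' : IsCoprime (m : ℤ) (n : ℤ) := Nat.isCoprime_iff_coprime.mpr hcopn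
  have h3 : (m : ℤ) ∣ n * ((i : ℤ) - j) + v - v₁ := hcop'.dvd_of_dvd_mul_left key
  have e : (N : ℤ) * s - (v₁ - v) * k = k * (n * ((i : ℤ) - j) + v - v₁) := by
    rw [hsij, hNnk]
    push_cast
    ring
  rw [e]
  exact Dvd.dvd.mul_left h3 _

end Fermat.Agent.Ribet.H403
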