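import Mathlib

/-!
# RIBET / DETF (helper403): the determinant from quadratic relations, pure linear algebra

`V` a vector space of dimension `2` over a field `k`.

* `det_eq_of_quadratic_of_not_scalar` : if `f² - a f + c = 0` and `f` is not a scalar then
  `det f = c` (Cayley–Hamilton).
* `det_eq_of_forall_quadratic` : if `ρ : G →* End V`, `χ : G →* kˣ`, every `ρ g` satisfies a
  relation `ρ(g)² - a ρ(g) + χ(g) = 0` (for some `a` depending on `g`) and SOME `ρ h` is not a
  scalar, then `det ρ(g) = χ(g)` for all `g`.
-/

set_option autoImplicit false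

namespace Fermat.Agent.Ribet.H403

open Polynomial

section LinAlg

variable {k V : Type*} [Field k] [AddCommGroup V] [Module k V] [Module.Finite k V]

/-- Cayley–Hamilton in dimension two, applied to a vector. -/
theorem cayley_hamilton_two (h2 : Module.finrank k V = 2) (f : Module.End k V) (x : V) :
    f (f x) + f.charpoly.coeff 1 • f x + f.charpoly.coeff 0 • x = 0 := by
  have hmon : f.charpoly.Monic := LinearMap.charpoly_monic f
  have hdeg : f.charpoly.natDegree = 2 := by rw [LinearMap.charpoly_natDegree, h2]
  have hsum := hmon.as_sum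
  rw [hdeg] at hsum
  have hch := LinearMap.aeval_self_charpoly f
  rw [hsum] at hch
  simp only [Finset.sum_range_succ, Finset.sum_range_zero, zero_add, pow_zero, mul_one, pow_one,
    map_add, map_pow, map_mul, aeval_X, aeval_C] at hch
  have := congrArg (fun g : Module.End k V => g x) hch
  simp only [LinearMap.add_apply, LinearMap.zero_apply, Module.algebraMap_end_apply,
    Module.End.mul_apply, pow_two] at this
  rw [← this]
  abel

/-- If `f² - a f + c = 0` on a 2-dimensional space and `f` is not a scalar, then `det f = c`. -/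
theorem det_eq_of_quadratic_of_not_scalar (h2 : Module.finrank k V = 2) (f : Module.End k V)
    (a c : k) (hrel : ∀ x, f (f x) - a • f x + c • x = 0)
    (hns : ¬ ∃ s : k, ∀ x, f x = s • x) : LinearMap.det f = c := by
  have hCH := cayley_hamilton_two h2 f
  set u := f.charpoly.coeff 1 with hu
  set d := f.charpoly.coeff 0 with hd
  have hdiff : ∀ x, (u + a) • f x + (d - c) • x = 0 := by
    intro x
    have h1 := hCH x
    have h2' := hrel x
    have : (u + a) • f x + (d - c) • x
        = (f (f x) + u • f x + d • x) - (f (f x) - a • f x + c • x) := by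
      rw [add_smul, sub_smul]; abel
    rw [this, h1, h2', sub_zero]
  have hua : u + a = 0 := by
    by_contra hne
    apply hns
    refine ⟨-(d - c) / (u + a), fun x => ?_⟩
    have h := hdiff x
    have h3 : (u + a) • f x = -((d - c) • x) := eq_neg_of_add_eq_zero_left h
    have h4 : f x = (u + a)⁻¹ • ((u + a) • f x) := by
      rw [smul_smul, inv_mul_cancel₀ hne, one_smul]
    rw [h4, h3, ← neg_smul, smul_smul]
    congr 1
    field_simp
  have hnt : Nontrivial V := by
    apply Module.nontrivial_of_finrank_pos (R := k)
    rw [h2]; norm_num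
  obtain ⟨x, hx⟩ := exists_ne (0 : V)
  have hdc : d = c := by
    have h := hdiff x
    rw [hua, zero_smul, zero_add] at h
    rcases smul_eq_zero.1 h with h | h
    · exact sub_eq_zero.1 h
    · exact absurd h hx
  rw [LinearMap.det_eq_sign_charpoly_coeff, h2, ← hd, hdc]
  norm_num

/-- The determinant is the multiplier `χ` as soon as every element satisfies a quadratic relation
with constant term `χ` and one element is not a scalar. -/
theorem det_eq_of_forall_quadratic {G : Type*} [Group G] (h2 : Module.finrank k V = 2)
    (ρ : G →* Module.End k V) (χ : G →* kˣ)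
    (hrel : ∀ g, ∃ a : k, ∀ x, ρ g (ρ g x) - a • ρ g x + (χ g : k) • x = 0)
    (hns : ∃ h, ¬ ∃ s : k, ∀ x, ρ h x = s • x) (g : G) :
    LinearMap.det (ρ g) = (χ g : k) := by
  have key : ∀ g, (¬ ∃ s : k, ∀ x, ρ g x = s • x) → LinearMap.det (ρ g) = (χ g : k) := by
    intro g hg
    obtain ⟨a, ha⟩ := hrel g
    exact det_eq_of_quadratic_of_not_scalar h2 (ρ g) a (χ g) ha hg
  by_cases hg : ∃ s : k, ∀ x, ρ g x = s • x
  · obtain ⟨s, hs⟩ := hg
    obtain ⟨h, hh⟩ := hns
    have hnt : Nontrivial V := by
      apply Module.nontrivial_of_finrank_pos (R := k)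
      rw [h2]; norm_num
    have hs0 : s ≠ 0 := by
      rintro rfl
      obtain ⟨x, hx⟩ := exists_ne (0 : V)
      have h1 : ρ (g * g⁻¹) x = x := by rw [mul_inv_cancel, map_one]; rfl
      rw [map_mul, Module.End.mul_apply, hs, zero_smul] at h1
      exact hx h1.symm
    have hgh : ¬ ∃ t : k, ∀ x, ρ (g * h) x = t • x := by
      rintro ⟨t, ht⟩
      apply hh
      refine ⟨s⁻¹ * t, fun x => ?_⟩
      have h1 := ht x
      rw [map_mul, Module.End.mul_apply, hs] at h1
      rw [← smul_smul, ← h1, smul_smul, inv_mul_cancel₀ hs0, one_smul]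
    have e1 := key (g * h) hgh
    have e2 := key h hh
    rw [map_mul, map_mul, map_mul, e2, Units.val_mul] at e1
    exact mul_right_cancel₀ (χ h).ne_zero e1
  · exact key g hg

end LinAlg

end Fermat.Agent.Ribet.H403
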