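import Fermat.Agent.Ribet.H403.NodeSlope

/-!
# RIBET, wall at `p`, leaf CT2 = P-NODE, fraction field form (helper403)

Setting of `Fermat.Agent.Ribet.H403.NodeSlope`: a node `X Y = ε π ^ n` with branches `𝔭₁ ∋ X`,
`𝔭₂ ∋ Y` in a noetherian local integrally closed domain `R`, `K = Frac R`.

For `u ∈ Kˣ` with
* `v_{𝔭₁}(u) = k₁` : `u b₁ = π ^ k₁ a₁`, `a₁ b₁ ∉ 𝔭₁`, `k₁ : ℤ`,
* `v_{𝔭₂}(u) = k₂` : `u b₂ = π ^ k₂ a₂`, `a₂ b₂ ∉ 𝔭₂`, `k₂ : ℤ`,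
* slope on the branch `𝔭₂` : `ord (a₂ mod 𝔭₂) - ord (b₂ mod 𝔭₂) = sa - sb`,
* (H1) `u` is an `m`-th power up to units at every horizontal prime (`π ∉ P`), in the form of
  `H672.node_purity_frac`,

`node_slope_frac_403` :  `n * (sa - sb) ≡ k₁ - k₂  (mod m)`  if `m` is prime to `n`;
`node_slope_frac_eq_403` :  `n * (sa - sb) = k₁ - k₂` if `u` is a unit at every horizontal prime.

Also: `exists_val_403` (every nonzero element of `R` has a `𝔭₁`-adic valuation with respect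
to `π`: `R_{𝔭₁}` is a discrete valuation ring with uniformiser `π`).
-/

set_option autoImplicit false
set_option linter.unusedSectionVars false
set_option linter.style.haveILetI false

namespace Fermat.Agent.Ribet.H403

open IsLocalRing Fermat.Agent.A2

section val

variable {R : Type*} [CommRing R] [IsDomain R] [IsNoetherianRing R]
variable (𝔭₁ 𝔭₂ : Ideal R) [𝔭₁.IsPrime] [𝔭₂.IsPrime]

/-- Krull: if `Y ^ β r ∈ (π ^ β)` for all `β`, with `Y ∉ 𝔭₁ ∋ π`, then `r = 0`. -/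
theorem eq_zero_of_forall_pow_dvd_403 {π Y : R} (hπ₁ : π ∈ 𝔭₁) (hY₁ : Y ∉ 𝔭₁) {r : R}
    (h : ∀ β : ℕ, π ^ β ∣ Y ^ β * r) : r = 0 := by
  let L := Localization.AtPrime 𝔭₁
  haveI : IsNoetherianRing L := IsLocalization.isNoetherianRing 𝔭₁.primeCompl L inferInstance
  have hinj : Function.Injective (algebraMap R L) :=
    IsLocalization.injective L 𝔭₁.primeCompl_le_nonZeroDivisors
  have hYu : IsUnit (algebraMap R L Y) :=
    IsLocalization.map_units L (⟨Y, hY₁⟩ : 𝔭₁.primeCompl)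
  have hI : Ideal.span {algebraMap R L π} ≠ ⊤ := by
    intro htop
    rw [Ideal.span_singleton_eq_top] at htop
    exact (IsLocalization.AtPrime.isUnit_to_map_iff L 𝔭₁ π).mp htop hπ₁
  have hmem : algebraMap R L r ∈ ⨅ i : ℕ, Ideal.span {algebraMap R L π} ^ i := by
    rw [Ideal.mem_iInf]
    intro β
    rw [Ideal.span_singleton_pow, Ideal.mem_span_singleton]
    obtain ⟨t, ht⟩ := h β
    have h1 : algebraMap R L Y ^ β * algebraMap R L r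
        = algebraMap R L π ^ β * algebraMap R L t := by
      rw [← map_pow, ← map_pow, ← map_mul, ← map_mul, ht]
    have h2 : algebraMap R L π ^ β ∣ algebraMap R L Y ^ β * algebraMap R L r :=
      Dvd.intro _ h1.symm
    exact ((hYu.pow β).dvd_mul_left).mp h2
  rw [Ideal.iInf_pow_eq_bot_of_isDomain _ hI, Ideal.mem_bot] at hmem
  exact hinj (by rw [hmem, map_zero])

/-- Every nonzero `r ∈ R` has a `𝔭₁`-adic valuation with respect to `π`: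
`σ r = τ π ^ β` with `σ, τ ∉ 𝔭₁`. -/
theorem exists_val_403 {π Y : R} (hπ : Ideal.span {π} = 𝔭₁ ⊓ 𝔭₂) (hY₂ : Y ∈ 𝔭₂) (hY₁ : Y ∉ 𝔭₁)
    {r : R} (hr : r ≠ 0) :
    ∃ (β : ℕ) (σ τ : R), σ ∉ 𝔭₁ ∧ τ ∉ 𝔭₁ ∧ σ * r = τ * π ^ β := by
  have hπ₁ : π ∈ 𝔭₁ := by
    have : π ∈ 𝔭₁ ⊓ 𝔭₂ := hπ ▸ Ideal.mem_span_singleton_self π
    exact this.1
  have hex : ∃ β : ℕ, ¬ π ^ β ∣ Y ^ β * r := by
    by_contra hcon
    refine hr (eq_zero_of_forall_pow_dvd_403 𝔭₁ hπ₁ hY₁ fun β => ?_)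
    by_contra h
    exact hcon ⟨β, h⟩
  classical
  let β₀ := Nat.find hex
  have hβ₀ : ¬ π ^ β₀ ∣ Y ^ β₀ * r := Nat.find_spec hex
  have hpos : β₀ ≠ 0 := by
    intro h0
    apply hβ₀
    rw [h0, pow_zero]
    exact one_dvd _
  obtain ⟨β, hβ⟩ : ∃ β, β₀ = β + 1 := ⟨β₀ - 1, by omega⟩
  have hβ' : π ^ β ∣ Y ^ β * r := by
    by_contra hcon
    have := Nat.find_min' hex hcon
    omega
  obtain ⟨t, ht⟩ := hβ'
  refine ⟨β, Y ^ β, t, fun h => hY₁ (Ideal.IsPrime.mem_of_pow_mem inferInstance β h), ?_, ?_⟩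
  · intro ht₁
    apply hβ₀
    have h1 : Y * t ∈ 𝔭₁ ⊓ 𝔭₂ := ⟨𝔭₁.mul_mem_left _ ht₁, 𝔭₂.mul_mem_right _ hY₂⟩
    rw [← hπ, Ideal.mem_span_singleton] at h1
    obtain ⟨t', ht'⟩ := h1
    rw [hβ]
    refine ⟨t', ?_⟩
    have : Y ^ (β + 1) * r = Y * (Y ^ β * r) := by ring
    rw [this, ht, pow_succ]
    have : Y * (π ^ β * t) = π ^ β * (Y * t) := by ring
    rw [this, ht']
    ring
  · rw [ht]
    ring

end val

section frac

variable {R : Type*} [CommRing R] [IsDomain R] [IsIntegrallyClosed R] [IsNoetherianRing R]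
  [IsLocalRing R]
variable (K : Type*) [Field K] [Algebra R K] [IsFractionRing R K]
variable (𝔭₁ 𝔭₂ : Ideal R) [𝔭₁.IsPrime] [𝔭₂.IsPrime]
  [IsDiscreteValuationRing (R ⧸ 𝔭₁)] [IsDiscreteValuationRing (R ⧸ 𝔭₂)]

/-- Node-slope relation in the fraction field, normalised to `v_{𝔭₂}(u) = 0`. -/
theorem node_slope_frac_aux_403 {π X Y ε : R} {n : ℕ} (hπ0 : π ≠ 0)
    (hπ : Ideal.span {π} = 𝔭₁ ⊓ 𝔭₂)
    (hX : Irreducible (Ideal.Quotient.mk 𝔭₂ X))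
    (hY₂ : Y ∈ 𝔭₂) (hY : Irreducible (Ideal.Quotient.mk 𝔭₁ Y)) (hε : IsUnit ε)
    (hXY : X * Y = ε * π ^ n) {m : ℕ} (hm : 0 < m) (hnm : Nat.Coprime n m) (u : K)
    {a₁ b₁ : R} {k : ℤ} (ha₁ : a₁ ∉ 𝔭₁) (hb₁ : b₁ ∉ 𝔭₁)
    (h₁ : u * algebraMap R K b₁ = algebraMap R K π ^ k * algebraMap R K a₁)
    {a₂ b₂ : R} (hb₂ : b₂ ∉ 𝔭₂) (h₂ : u * algebraMap R K b₂ = algebraMap R K a₂)
    {sa sb : ℕ} {εa εb : (R ⧸ 𝔭₂)ˣ}
    (hsa : Ideal.Quotient.mk 𝔭₂ a₂ = εa * (Ideal.Quotient.mk 𝔭₂ X) ^ sa)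
    (hsb : Ideal.Quotient.mk 𝔭₂ b₂ = εb * (Ideal.Quotient.mk 𝔭₂ X) ^ sb)
    (hloc : ∀ P : Ideal R, P.IsPrime → π ∉ P → ∃ (z : K) (s₁ s₂ : R), s₁ ∉ P ∧ s₂ ∉ P ∧
      algebraMap R K s₁ * u = algebraMap R K s₂ * z ^ m) :
    (n : ℤ) * ((sa : ℤ) - sb) ≡ k [ZMOD (m : ℤ)] := by
  have hinj : Function.Injective (algebraMap R K) := IsFractionRing.injective R K
  have hπK : algebraMap R K π ≠ 0 := by rwa [Ne, map_eq_zero_iff _ hinj]
  have hY₁ : Y ∉ 𝔭₁ := fun h => hY.ne_zero (Ideal.Quotient.eq_zero_iff_mem.mpr h)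
  obtain ⟨m', rfl⟩ : ∃ m', m = m' + 1 := ⟨m - 1, by omega⟩
  -- the numerator `U = u b₂ ^ m`
  set U : R := a₂ * b₂ ^ m' with hU
  have hUK : algebraMap R K U = u * algebraMap R K b₂ ^ (m' + 1) := by
    rw [hU, map_mul, map_pow, ← h₂, pow_succ]
    ring
  have hsU : Ideal.Quotient.mk 𝔭₂ U
      = ((εa * εb ^ m' : (R ⧸ 𝔭₂)ˣ) : R ⧸ 𝔭₂) * (Ideal.Quotient.mk 𝔭₂ X) ^ (sa + m' * sb) := by
    rw [hU, map_mul, map_pow, hsa, hsb, Units.val_mul, Units.val_pow_eq_pow_val]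
    ring
  -- (H1) for `U`
  have H1U : ∀ P : Ideal R, P.IsPrime → U ∈ P → π ∉ P →
      ∃ z σ : R, σ ∉ P ∧ z ^ (m' + 1) = σ * U := by
    intro P hP _ hπP
    obtain ⟨z, s₁, s₂, hs₁, hs₂, hz⟩ := hloc P hP hπP
    have hw : (algebraMap R K s₂ * (z * algebraMap R K b₂)) ^ (m' + 1)
        = algebraMap R K (s₂ ^ m' * s₁ * U) := by
      rw [map_mul, map_mul, map_pow, hUK]
      have : (algebraMap R K s₂ * (z * algebraMap R K b₂)) ^ (m' + 1)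
          = algebraMap R K s₂ ^ m' * (algebraMap R K s₂ * z ^ (m' + 1))
            * algebraMap R K b₂ ^ (m' + 1) := by
        rw [mul_pow, mul_pow, pow_succ (algebraMap R K s₂) m']
        ring
      rw [this, ← hz]
      ring
    have hint : IsIntegral R ((algebraMap R K s₂ * (z * algebraMap R K b₂)) ^ (m' + 1)) := by
      rw [hw]
      exact isIntegral_algebraMap
    obtain ⟨y, hy⟩ := IsIntegrallyClosed.exists_algebraMap_eq_of_isIntegral_pow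
      (Nat.succ_pos m') hint
    refine ⟨y, s₂ ^ m' * s₁, ?_, ?_⟩
    · intro h
      rcases Ideal.IsPrime.mem_or_mem hP h with h1 | h1
      · exact hs₂ (hP.mem_of_pow_mem m' h1)
      · exact hs₁ h1
    · apply hinj
      rw [map_pow, hy, hw]
  -- the `𝔭₁`-adic valuation of `U`
  have hb₂0 : b₂ ≠ 0 := by
    rintro rfl
    exact hb₂ 𝔭₂.zero_mem
  obtain ⟨β, σb, τb, hσb, hτb, hb⟩ := exists_val_403 𝔭₁ 𝔭₂ hπ hY₂ hY₁ hb₂0
  have hbK : algebraMap R K σb * algebraMap R K b₂ = algebraMap R K τb * algebraMap R K π ^ β := by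
    rw [← map_mul, hb, map_mul, map_pow]
  have hrel : algebraMap R K (b₁ * σb ^ (m' + 1) * U)
      = algebraMap R K π ^ (k + ((m' + 1 : ℕ) : ℤ) * β)
        * algebraMap R K (a₁ * τb ^ (m' + 1)) := by
    have e1 : algebraMap R K (b₁ * σb ^ (m' + 1) * U)
        = (u * algebraMap R K b₁) * (algebraMap R K σb * algebraMap R K b₂) ^ (m' + 1) := by
      rw [map_mul, map_mul, map_pow, hUK]
      ring
    rw [e1, h₁, hbK, map_mul, map_pow, zpow_add₀ hπK, mul_pow, ← pow_mul]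
    have e2 : algebraMap R K π ^ (((m' + 1 : ℕ) : ℤ) * (β : ℤ))
        = algebraMap R K π ^ (β * (m' + 1)) := by
      rw [← zpow_natCast]
      congr 1
      push_cast
      ring
    rw [e2]
    ring
  have hσ₀ : b₁ * σb ^ (m' + 1) ∉ 𝔭₁ := by
    intro h
    rcases Ideal.IsPrime.mem_or_mem inferInstance h with h1 | h1
    · exact hb₁ h1
    · exact hσb (Ideal.IsPrime.mem_of_pow_mem inferInstance _ h1)
  have hτ₀ : a₁ * τb ^ (m' + 1) ∉ 𝔭₁ := by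
    intro h
    rcases Ideal.IsPrime.mem_or_mem inferInstance h with h1 | h1
    · exact ha₁ h1
    · exact hτb (Ideal.IsPrime.mem_of_pow_mem inferInstance _ h1)
  have hπ₁ : π ∈ 𝔭₁ := by
    have : π ∈ 𝔭₁ ⊓ 𝔭₂ := hπ ▸ Ideal.mem_span_singleton_self π
    exact this.1
  -- the exponent is nonnegative
  have hc0 : 0 ≤ k + ((m' + 1 : ℕ) : ℤ) * β := by
    by_contra hneg
    rw [not_le] at hneg
    obtain ⟨e, he⟩ : ∃ e : ℕ, k + ((m' + 1 : ℕ) : ℤ) * β = -((e + 1 : ℕ) : ℤ) :=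
      ⟨(-(k + ((m' + 1 : ℕ) : ℤ) * β)).toNat - 1, by omega⟩
    rw [he, zpow_neg, zpow_natCast] at hrel
    have h3 : algebraMap R K (b₁ * σb ^ (m' + 1) * U * π ^ (e + 1))
        = algebraMap R K (a₁ * τb ^ (m' + 1)) := by
      rw [map_mul (algebraMap R K) (b₁ * σb ^ (m' + 1) * U), hrel, map_pow]
      field_simp
    have h4 := hinj h3
    apply hτ₀
    rw [← h4]
    exact 𝔭₁.mul_mem_left _ (Ideal.pow_mem_of_mem _ hπ₁ _ (Nat.succ_pos e))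
  obtain ⟨c, hc⟩ := Int.eq_ofNat_of_zero_le hc0
  have hcR : b₁ * σb ^ (m' + 1) * U = a₁ * τb ^ (m' + 1) * π ^ c := by
    apply hinj
    rw [hrel, hc, zpow_natCast, map_mul (algebraMap R K) (a₁ * τb ^ (m' + 1)), map_pow]
    ring
  have hcore := node_slope_modEq_403 𝔭₁ 𝔭₂ hπ0 hπ hX hY₂ hY hε hXY hsU hm hnm H1U hσ₀ hτ₀ hcR
  rw [Int.modEq_iff_dvd] at hcore ⊢
  have e3 : k - (n : ℤ) * ((sa : ℤ) - sb)
      = ((c : ℤ) - ((n * (sa + m' * sb) : ℕ) : ℤ))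
        + ((m' + 1 : ℕ) : ℤ) * ((n : ℤ) * sb - β) := by
    have hc' : (c : ℤ) = k + ((m' + 1 : ℕ) : ℤ) * β := hc.symm
    rw [hc']
    push_cast
    ring
  rw [e3]
  exact dvd_add hcore (Dvd.intro _ rfl)

/-- **CT2 / P-NODE, fraction field form.**  `v_{𝔭₁}(u) - v_{𝔭₂}(u) ≡ n · slope (mod m)` for
`u ∈ K` which is an `m`-th power up to units at every horizontal prime, `m` prime to the
thickness `n`. -/
theorem node_slope_frac_403 {π X Y ε : R} {n : ℕ} (hπ0 : π ≠ 0)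
    (hπ : Ideal.span {π} = 𝔭₁ ⊓ 𝔭₂)
    (hX : Irreducible (Ideal.Quotient.mk 𝔭₂ X))
    (hY₂ : Y ∈ 𝔭₂) (hY : Irreducible (Ideal.Quotient.mk 𝔭₁ Y)) (hε : IsUnit ε)
    (hXY : X * Y = ε * π ^ n) {m : ℕ} (hm : 0 < m) (hnm : Nat.Coprime n m) (u : K)
    {a₁ b₁ : R} {k₁ : ℤ} (ha₁ : a₁ ∉ 𝔭₁) (hb₁ : b₁ ∉ 𝔭₁)
    (h₁ : u * algebraMap R K b₁ = algebraMap R K π ^ k₁ * algebraMap R K a₁)
    {a₂ b₂ : R} {k₂ : ℤ} (hb₂ : b₂ ∉ 𝔭₂)
    (h₂ : u * algebraMap R K b₂ = algebraMap R K π ^ k₂ * algebraMap R K a₂)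
    {sa sb : ℕ} {εa εb : (R ⧸ 𝔭₂)ˣ}
    (hsa : Ideal.Quotient.mk 𝔭₂ a₂ = εa * (Ideal.Quotient.mk 𝔭₂ X) ^ sa)
    (hsb : Ideal.Quotient.mk 𝔭₂ b₂ = εb * (Ideal.Quotient.mk 𝔭₂ X) ^ sb)
    (hloc : ∀ P : Ideal R, P.IsPrime → π ∉ P → ∃ (z : K) (s₁ s₂ : R), s₁ ∉ P ∧ s₂ ∉ P ∧
      algebraMap R K s₁ * u = algebraMap R K s₂ * z ^ m) :
    (n : ℤ) * ((sa : ℤ) - sb) ≡ k₁ - k₂ [ZMOD (m : ℤ)] := by
  have hinj : Function.Injective (algebraMap R K) := IsFractionRing.injective R K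
  have hπK : algebraMap R K π ≠ 0 := by rwa [Ne, map_eq_zero_iff _ hinj]
  refine node_slope_frac_aux_403 K 𝔭₁ 𝔭₂ hπ0 hπ hX hY₂ hY hε hXY hm hnm
    (u * algebraMap R K π ^ (-k₂)) ha₁ hb₁ ?_ hb₂ ?_ hsa hsb ?_
  · rw [mul_right_comm, h₁, sub_eq_add_neg, zpow_add₀ hπK]
    ring
  · rw [mul_right_comm, h₂, mul_right_comm, ← zpow_add₀ hπK, add_neg_cancel, zpow_zero, one_mul]
  · intro P hP hπP
    obtain ⟨z, s₁, s₂, hs₁, hs₂, hz⟩ := hloc P hP hπP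
    rcases Int.eq_nat_or_neg k₂ with ⟨j, rfl | rfl⟩
    · refine ⟨z, s₁ * π ^ j, s₂, ?_, hs₂, ?_⟩
      · intro h
        rcases Ideal.IsPrime.mem_or_mem hP h with h1 | h1
        · exact hs₁ h1
        · exact hπP (hP.mem_of_pow_mem j h1)
      · rw [map_mul, map_pow, ← hz, zpow_neg, zpow_natCast]
        field_simp
    · refine ⟨z, s₁, s₂ * π ^ j, hs₁, ?_, ?_⟩
      · intro h
        rcases Ideal.IsPrime.mem_or_mem hP h with h1 | h1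
        · exact hs₂ h1
        · exact hπP (hP.mem_of_pow_mem j h1)
      · rw [map_mul, map_pow, neg_neg, zpow_natCast, ← mul_assoc, hz]
        ring

end frac

end Fermat.Agent.Ribet.H403
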