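import Fermat.Agent.Ribet.H403.NodeRel
import Fermat.Agent.Ribet.H403.NodeSlopeFrac
import Fermat.Agent.Ribet.H704.I6Core

/-!
# RIBET row 38, wall-p crux (I6), leaf NODE, fraction form:
# `nodeRelFrac_403 : H704.I6.NodeRelFracStatement`

Adapter from `node_slope_frac_403` (`NodeSlopeFrac.lean`, thick node `X * Y = ε * π ^ n`,
`u ∈ Frac R`) and `exists_thick_form_403` (`NodeRel.lean`) to the frozen fraction form consumed
by the I6 assembly (`Fermat/Agent/Ribet/H704/I6Core.lean`).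
-/

set_option autoImplicit false

namespace Fermat.Agent.Ribet.H403

open IsLocalRing Fermat.Agent.Ribet.H704.I6

section frac

variable {R : Type*} [CommRing R] [IsDomain R]
variable (K : Type*) [Field K] [Algebra R K] [IsFractionRing R K]

omit [IsDomain R] in
/-- The valuation of `u ∈ Frac R` along a branch is well defined (one inequality). -/
theorem valAt_le_403 (𝔭 : Ideal R) [𝔭.IsPrime] {π : R} (hπ0 : π ≠ 0) (hπ : π ∈ 𝔭)
    {u : K} {v v' : ℤ} {a b a' b' : R} (hb : b ∉ 𝔭) (ha' : a' ∉ 𝔭)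
    (h : u * algebraMap R K b = algebraMap R K π ^ v * algebraMap R K a)
    (h' : u * algebraMap R K b' = algebraMap R K π ^ v' * algebraMap R K a') : v ≤ v' := by
  have hinj : Function.Injective (algebraMap R K) := IsFractionRing.injective R K
  have hπK : algebraMap R K π ≠ 0 := by rwa [Ne, map_eq_zero_iff _ hinj]
  by_contra hlt
  rw [not_le] at hlt
  obtain ⟨e, he⟩ : ∃ e : ℕ, v = v' + ((e + 1 : ℕ) : ℤ) := ⟨(v - v').toNat - 1, by omega⟩
  have h1 : algebraMap R K π ^ v' * (algebraMap R K a' * algebraMap R K b)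
      = algebraMap R K π ^ v * (algebraMap R K a * algebraMap R K b') := by
    calc algebraMap R K π ^ v' * (algebraMap R K a' * algebraMap R K b)
        = (algebraMap R K π ^ v' * algebraMap R K a') * algebraMap R K b := by ring
      _ = (u * algebraMap R K b') * algebraMap R K b := by rw [h']
      _ = (u * algebraMap R K b) * algebraMap R K b' := by ring
      _ = (algebraMap R K π ^ v * algebraMap R K a) * algebraMap R K b' := by rw [h]
      _ = algebraMap R K π ^ v * (algebraMap R K a * algebraMap R K b') := by ring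
  rw [he, zpow_add₀ hπK, mul_assoc] at h1
  have h2 := mul_left_cancel₀ (zpow_ne_zero v' hπK) h1
  rw [zpow_natCast, ← map_mul, ← map_pow, ← map_mul, ← map_mul] at h2
  have h3 : a' * b = π ^ (e + 1) * (a * b') := hinj h2
  have h4 : a' * b ∈ 𝔭 := by
    rw [h3]
    exact Ideal.mul_mem_right _ _ (Ideal.pow_mem_of_mem _ hπ _ (Nat.succ_pos e))
  rcases Ideal.IsPrime.mem_or_mem inferInstance h4 with h5 | h5
  · exact ha' h5
  · exact hb h5

end frac

section main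

variable {R : Type*} [CommRing R] [IsDomain R] [IsIntegrallyClosed R] [IsNoetherianRing R]
  [IsLocalRing R]
variable (K : Type*) [Field K] [Algebra R K] [IsFractionRing R K]

omit [IsDomain R] [IsIntegrallyClosed R] [IsNoetherianRing R] [IsLocalRing R] in
/-- `H704.I6.HorDivFrac` in the local form used by `node_slope_frac_403`. -/
theorem horDivFrac_loc_403 {π : R} {m : ℕ} (hm : m ≠ 0) {u : K} (h : HorDivFrac K π m u) :
    ∀ P : Ideal R, P.IsPrime → π ∉ P → ∃ (z : K) (s₁ s₂ : R), s₁ ∉ P ∧ s₂ ∉ P ∧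
      algebraMap R K s₁ * u = algebraMap R K s₂ * z ^ m := by
  have hinj : Function.Injective (algebraMap R K) := IsFractionRing.injective R K
  obtain ⟨a, b, hb0, hab, hdiv⟩ := h
  have hbK : algebraMap R K b ≠ 0 := by rwa [Ne, map_eq_zero_iff _ hinj]
  obtain ⟨m', rfl⟩ : ∃ m', m = m' + 1 := ⟨m - 1, by omega⟩
  rw [Nat.add_sub_cancel] at hdiv
  have hu : u = algebraMap R K (a * b ^ m') * ((algebraMap R K b)⁻¹) ^ (m' + 1) := by
    have hpow : algebraMap R K b ^ (m' + 1) ≠ 0 := pow_ne_zero _ hbK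
    rw [map_mul, map_pow, ← hab, inv_pow]
    calc u = u * (algebraMap R K b ^ (m' + 1) * (algebraMap R K b ^ (m' + 1))⁻¹) := by
          rw [mul_inv_cancel₀ hpow, mul_one]
      _ = u * algebraMap R K b * algebraMap R K b ^ m' * (algebraMap R K b ^ (m' + 1))⁻¹ := by
          rw [pow_succ']; ring
  intro P hP hπP
  by_cases haP : a * b ^ m' ∈ P
  · obtain ⟨f, r, hr, hf⟩ := hdiv P hP haP hπP
    refine ⟨algebraMap R K f * (algebraMap R K b)⁻¹, r, 1, hr,
      fun h1 => hP.ne_top ((Ideal.eq_top_iff_one _).mpr h1), ?_⟩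
    rw [map_one, one_mul, mul_pow, ← map_pow, hf, hu, map_mul (algebraMap R K) (a * b ^ m') r]
    ring
  · refine ⟨(algebraMap R K b)⁻¹, 1, a * b ^ m',
      fun h1 => hP.ne_top ((Ideal.eq_top_iff_one _).mpr h1), haP, ?_⟩
    rw [map_one, one_mul, hu]

/-- **NODE, fraction form** (leaf of the I6 package consumed by the assembly,
`Fermat/Agent/Ribet/H704/I6Core.lean`). -/
theorem nodeRelFrac_403 : NodeRelFracStatement := by
  intro R K _ _ _ _ _ _ _ _ 𝔭₁ 𝔭₂ π x y hnode m N hm hNm D D' hDD u hu hdiv v₁ v₂ s k hv₁ hv₂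
    hslope hk
  rcases Nat.eq_zero_or_pos N with hN | hN
  · subst hN
    have hm1 : m = 1 := by simpa using hNm
    subst hm1
    simp
  have := hnode.prime₁
  have := hnode.prime₂
  have : IsDiscreteValuationRing (R ⧸ 𝔭₁) :=
    isDVR_of_unif_403 𝔭₁ hnode.hx₁ hnode.nonunit₁ hnode.unif₁
  have : IsDiscreteValuationRing (R ⧸ 𝔭₂) :=
    isDVR_of_unif_403 𝔭₂ hnode.hy₂ hnode.nonunit₂ hnode.unif₂
  obtain ⟨S', T', G', n, hπ0, hG', hprod, hS₁, hT₂, hS₂, hT₁, hnk⟩ :=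
    exists_thick_form_403 hnode hN hDD hk
  have hirr₁ : Irreducible (Ideal.Quotient.mk 𝔭₁ S') := by
    rw [hS₁]
    exact irreducible_mk_of_unif_403 𝔭₁ hnode.hx₁ hnode.nonunit₁ hnode.unif₁
  have hirr₂ : Irreducible (Ideal.Quotient.mk 𝔭₂ T') := by
    rw [hT₂]
    exact irreducible_mk_of_unif_403 𝔭₂ hnode.hy₂ hnode.nonunit₂ hnode.unif₂
  have hnm : Nat.Coprime n m := Nat.Coprime.coprime_dvd_left ⟨k, hnk.symm⟩ hNm
  have hπ₂ : π ∈ 𝔭₂ := by
    have : π ∈ 𝔭₁ ⊓ 𝔭₂ := hnode.inf_eq ▸ Ideal.mem_span_singleton_self π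
    exact this.2
  obtain ⟨a₁, b₁, ha₁, hb₁, h₁⟩ := hv₁
  obtain ⟨a₂', b₂', ha₂', hb₂', h₂'⟩ := hv₂
  obtain ⟨v, a₂, b₂, i, j, ha₂, hb₂, h₂, hi, hj, rfl⟩ := hslope
  have hvv : v = v₂ := le_antisymm
    (valAt_le_403 K 𝔭₂ hπ0 hπ₂ hb₂ ha₂' h₂ h₂')
    (valAt_le_403 K 𝔭₂ hπ0 hπ₂ hb₂' ha₂ h₂' h₂)
  obtain ⟨εa, hεa⟩ := ordOn_unit_form_403 𝔭₂ hi hT₂
  obtain ⟨εb, hεb⟩ := ordOn_unit_form_403 𝔭₂ hj hT₂
  have hcore := node_slope_frac_403 K 𝔭₁ 𝔭₂ hπ0 hnode.inf_eq.symm hirr₂ hS₂ hirr₁ hG'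
    (by rw [mul_comm, hprod]) (Nat.pos_of_ne_zero hm) hnm u ha₁ hb₁ h₁ hb₂ h₂ hεa hεb
    (horDivFrac_loc_403 K hm hdiv)
  rw [Int.modEq_iff_dvd] at hcore
  obtain ⟨w, hw⟩ := hcore
  refine ⟨-(k : ℤ) * w, ?_⟩
  have hN' : (N : ℤ) = (n : ℤ) * k := by exact_mod_cast hnk.symm
  rw [hN', ← hvv]
  linear_combination (-(k : ℤ)) * hw

end main

end Fermat.Agent.Ribet.H403
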