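import Fermat.Agent.A2.H672.Count
import Fermat.Agent.A2.H672.Node
import Fermat.Agent.A2.H609.Smooth

/-!
# RIBET, wall at `p`, crux (I6), leaf CT2 = P-NODE: the node-slope relation (helper403)

Abstract local algebra (Mathlib + landed A2 node-purity library of helper672/helper609).

`R` a noetherian local integrally closed domain, `𝔭₁ 𝔭₂` two primes ("branches") with
`(π) = 𝔭₁ ⊓ 𝔭₂`, `R ⧸ 𝔭ᵢ` discrete valuation rings, `X ∈ 𝔭₁` a uniformiser of `R ⧸ 𝔭₂`,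
`Y ∈ 𝔭₂` a uniformiser of `R ⧸ 𝔭₁`, `X * Y = ε * π ^ n` with `ε` a unit (a node of thickness
`n`; no completion, no hypothesis on the residue characteristic).

For `u ∉ 𝔭₂` write `s = ord_{𝔭₂}(u)` for the order of `u mod 𝔭₂` in `R ⧸ 𝔭₂`
(`mk u = ε' * mk X ^ s`) and `c = v_{𝔭₁}(u)` (`σ * u = τ * π ^ c`, `σ τ ∉ 𝔭₁`).

* `length_quotient_span_pair` : `ℓ(R / (u, Y)) = n * s`.
* `dvd_mul_ord` : if `u` is an `m`-th power up to units at every prime `P ∋ u`, `Y ∉ P`,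
  then `m ∣ n * s`.
* `node_slope_dvd` : if `m ∣ ord_P u` at all HORIZONTAL primes (`π ∉ P`) and `m ∣ c + n * j`,
  then `m ∣ n * (s + j)`.
* `node_slope_modEq` : for `m` prime to `n`:  `n * s ≡ c  (mod m)`      (**CT2 / P-NODE**).
* `node_slope_eq` : for a purely vertical `u` (no horizontal prime):  `n * s = c`  EXACTLY.
-/

set_option autoImplicit false
set_option linter.unusedSectionVars false
set_option linter.style.haveILetI false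

namespace Fermat.Agent.Ribet.H403

open IsLocalRing Fermat.Agent.A2

section cancel

variable {R : Type*} [CommRing R] [IsDomain R]
variable (𝔭₂ : Ideal R) [𝔭₂.IsPrime]

/-- Cancellation at the node: if `X Y = ε π ^ n`, `X ∉ 𝔭₂ ∋ π` and
`r π ^ i ∈ (Y, π ^ (i + 1))` with `i < n`, then `r ∈ 𝔭₂`. -/
theorem mem_of_mul_pow_mem_403 {π X Y ε : R} {n : ℕ} (hπ0 : π ≠ 0) (hπ₂ : π ∈ 𝔭₂)
    (hX₂ : X ∉ 𝔭₂) (hXY : X * Y = ε * π ^ n) {i : ℕ} (hi : i < n) {r : R}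
    (h : r * π ^ i ∈ Ideal.span {Y} ⊔ Ideal.span {π ^ (i + 1)}) : r ∈ 𝔭₂ := by
  obtain ⟨a, ha, b, hb, hab⟩ := Submodule.mem_sup.mp h
  obtain ⟨a', rfl⟩ := Ideal.mem_span_singleton'.mp ha
  obtain ⟨b', rfl⟩ := Ideal.mem_span_singleton'.mp hb
  obtain ⟨d, rfl⟩ : ∃ d, n = i + 1 + d := ⟨n - (i + 1), by omega⟩
  have h1 : π ^ i * (X * (r - π * b')) = π ^ i * (ε * π ^ (d + 1) * a') := by
    have : X * (a' * Y) = a' * (ε * π ^ (i + 1 + d)) := by rw [← hXY]; ring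
    have h2 : X * (r * π ^ i) = X * (a' * Y + b' * π ^ (i + 1)) := by rw [hab]
    rw [mul_add, this] at h2
    have e1 : π ^ (i + 1 + d) = π ^ i * π ^ (d + 1) := by rw [← pow_add]; congr 1; omega
    have e2 : π ^ (i + 1) = π ^ i * π := pow_succ π i
    rw [e1, e2] at h2
    linear_combination h2
  have h2 := mul_left_cancel₀ (pow_ne_zero i hπ0) h1
  have h3 : X * (r - π * b') ∈ 𝔭₂ := by
    rw [h2, pow_succ]
    exact 𝔭₂.mul_mem_right _ (𝔭₂.mul_mem_left _ (𝔭₂.mul_mem_left _ hπ₂))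
  have h4 : r - π * b' ∈ 𝔭₂ := (Ideal.IsPrime.mem_or_mem inferInstance h3).resolve_left hX₂
  have : r = (r - π * b') + π * b' := by ring
  rw [this]
  exact 𝔭₂.add_mem h4 (𝔭₂.mul_mem_right _ hπ₂)

/-- `u ∉ 𝔭₂` is regular modulo `(Y, π ^ i)` for `i ≤ n`. -/
theorem mem_span_sup_of_mul_mem_403 {π X Y ε : R} {n : ℕ} (hπ0 : π ≠ 0) (hπ₂ : π ∈ 𝔭₂)
    (hX₂ : X ∉ 𝔭₂) (hXY : X * Y = ε * π ^ n)
    (h𝔭₂ : 𝔭₂ ≤ Ideal.span {Y} ⊔ Ideal.span {π}) {u : R} (hu : u ∉ 𝔭₂) :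
    ∀ i : ℕ, i ≤ n → ∀ a : R, u * a ∈ Ideal.span {Y} ⊔ Ideal.span {π ^ i} →
      a ∈ Ideal.span {Y} ⊔ Ideal.span {π ^ i} := by
  intro i
  induction i with
  | zero =>
    intro _ a _
    rw [pow_zero, Ideal.span_singleton_one, sup_top_eq]
    trivial
  | succ i ih =>
    intro hi a ha
    have hle : Ideal.span {Y} ⊔ Ideal.span {π ^ (i + 1)} ≤ Ideal.span {Y} ⊔ Ideal.span {π ^ i} :=
      sup_le_sup_left ((Ideal.span_singleton_le_span_singleton).mpr (pow_dvd_pow π (Nat.le_succ i))) _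
    obtain ⟨c, hc, d, hd, hcd⟩ := Submodule.mem_sup.mp (ih (by omega) a (hle ha))
    obtain ⟨c', rfl⟩ := Ideal.mem_span_singleton'.mp hc
    obtain ⟨d', rfl⟩ := Ideal.mem_span_singleton'.mp hd
    -- `u d' π ^ i ∈ (Y, π ^ (i+1))`
    have h1 : (u * d') * π ^ i ∈ Ideal.span {Y} ⊔ Ideal.span {π ^ (i + 1)} := by
      have : (u * d') * π ^ i = u * a - (u * c') * Y := by rw [← hcd]; ring
      rw [this]
      exact Ideal.sub_mem _ ha (Ideal.mem_sup_left (Ideal.mul_mem_left _ _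
        (Ideal.mem_span_singleton_self Y)))
    have h2 : u * d' ∈ 𝔭₂ := mem_of_mul_pow_mem_403 𝔭₂ hπ0 hπ₂ hX₂ hXY (by omega) h1
    have h3 : d' ∈ 𝔭₂ := (Ideal.IsPrime.mem_or_mem inferInstance h2).resolve_left hu
    obtain ⟨e, he, f, hf, hef⟩ := Submodule.mem_sup.mp (h𝔭₂ h3)
    obtain ⟨e', rfl⟩ := Ideal.mem_span_singleton'.mp he
    obtain ⟨f', rfl⟩ := Ideal.mem_span_singleton'.mp hf
    have : a = (c' + e' * π ^ i) * Y + f' * π ^ (i + 1) := by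
      rw [← hcd, ← hef, pow_succ]; ring
    rw [this]
    exact Ideal.add_mem _
      (Ideal.mem_sup_left (Ideal.mul_mem_left _ _ (Ideal.mem_span_singleton_self Y)))
      (Ideal.mem_sup_right (Ideal.mul_mem_left _ _ (Ideal.mem_span_singleton_self _)))

/-- `(Y, π ^ n) = (Y)` when `X Y = ε π ^ n`, `ε` a unit. -/
theorem span_sup_span_pow_eq_403 {π X Y ε : R} {n : ℕ} (hε : IsUnit ε)
    (hXY : X * Y = ε * π ^ n) : Ideal.span {Y} ⊔ Ideal.span {π ^ n} = Ideal.span {Y} := by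
  refine le_antisymm (sup_le le_rfl ?_) le_sup_left
  rw [Ideal.span_singleton_le_iff_mem, Ideal.mem_span_singleton]
  obtain ⟨e, rfl⟩ := hε
  refine ⟨(↑e⁻¹ : R) * X, ?_⟩
  have : Y * ((↑e⁻¹ : R) * X) = (↑e⁻¹ : R) * (X * Y) := by ring
  rw [this, hXY, ← mul_assoc, Units.inv_mul, one_mul]

/-- `u ∉ 𝔭₂` is regular modulo `Y`. -/
theorem dvd_of_dvd_mul_403 {π X Y ε : R} {n : ℕ} (hπ0 : π ≠ 0) (hπ₂ : π ∈ 𝔭₂)
    (hX₂ : X ∉ 𝔭₂) (hε : IsUnit ε) (hXY : X * Y = ε * π ^ n)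
    (h𝔭₂ : 𝔭₂ ≤ Ideal.span {Y} ⊔ Ideal.span {π}) {u : R} (hu : u ∉ 𝔭₂) :
    ∀ x : R, Y ∣ u * x → Y ∣ x := by
  intro x hx
  have h1 : u * x ∈ Ideal.span {Y} ⊔ Ideal.span {π ^ n} :=
    Ideal.mem_sup_left (Ideal.mem_span_singleton.mpr hx)
  have h2 := mem_span_sup_of_mul_mem_403 𝔭₂ hπ0 hπ₂ hX₂ hXY h𝔭₂ hu n le_rfl x h1
  rw [span_sup_span_pow_eq_403 hε hXY] at h2
  exact Ideal.mem_span_singleton.mp h2

end cancel

section length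

/-- (local copy, name-stable) a power vanishes only if the base does. -/
theorem eq_zero_of_pow_eq_zero_403 {M : Type*} [MonoidWithZero M] [NoZeroDivisors M] {a : M}
    {n : ℕ} (h : a ^ n = 0) : a = 0 := by
  induction n with
  | zero => rw [pow_zero] at h; exact (mul_one a).symm.trans (by rw [h, mul_zero])
  | succ n ih =>
    rw [pow_succ] at h
    rcases mul_eq_zero.mp h with h1 | h1
    · exact ih h1
    · exact h1

variable {R : Type*} [CommRing R] [IsDomain R] [IsLocalRing R]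
variable (𝔭₂ : Ideal R) [𝔭₂.IsPrime] [IsDiscreteValuationRing (R ⧸ 𝔭₂)]

omit [IsDomain R] [IsLocalRing R] in
/-- Membership in an ideal with three generators. -/
theorem mem_span_triple_403 {u Y w x : R} :
    x ∈ Ideal.span {u} ⊔ Ideal.span {Y} ⊔ Ideal.span {w} ↔
      ∃ a c d : R, x = u * a + Y * c + w * d := by
  constructor
  · intro h
    obtain ⟨y, hy, z, hz, rfl⟩ := Submodule.mem_sup.mp h
    obtain ⟨y₁, hy₁, y₂, hy₂, rfl⟩ := Submodule.mem_sup.mp hy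
    obtain ⟨a, rfl⟩ := Ideal.mem_span_singleton'.mp hy₁
    obtain ⟨c, rfl⟩ := Ideal.mem_span_singleton'.mp hy₂
    obtain ⟨d, rfl⟩ := Ideal.mem_span_singleton'.mp hz
    exact ⟨a, c, d, by ring⟩
  · rintro ⟨a, c, d, rfl⟩
    exact Ideal.add_mem _ (Ideal.mem_sup_left (Ideal.add_mem _
      (Ideal.mem_sup_left (Ideal.mul_mem_right _ _ (Ideal.mem_span_singleton_self u)))
      (Ideal.mem_sup_right (Ideal.mul_mem_right _ _ (Ideal.mem_span_singleton_self Y)))))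
      (Ideal.mem_sup_right (Ideal.mul_mem_right _ _ (Ideal.mem_span_singleton_self w)))

omit [IsDomain R] [IsLocalRing R] [IsDiscreteValuationRing (R ⧸ 𝔭₂)] [𝔭₂.IsPrime] in
/-- `(u) + 𝔭₂ = (X ^ s) + 𝔭₂` if `u ≡ ε' X ^ s` modulo `𝔭₂`. -/
theorem span_sup_eq_of_mk_eq_403 {X u : R} {s : ℕ} {ε' : (R ⧸ 𝔭₂)ˣ}
    (hs : Ideal.Quotient.mk 𝔭₂ u = ε' * (Ideal.Quotient.mk 𝔭₂ X) ^ s) :
    Ideal.span {u} ⊔ 𝔭₂ = Ideal.span {X ^ s} ⊔ 𝔭₂ := by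
  apply le_antisymm
  · refine sup_le ?_ le_sup_right
    rw [Ideal.span_singleton_le_iff_mem]
    obtain ⟨e, he⟩ := Ideal.Quotient.mk_surjective ((ε' : (R ⧸ 𝔭₂)ˣ) : R ⧸ 𝔭₂)
    have h1 : u - X ^ s * e ∈ 𝔭₂ := by
      rw [← Ideal.Quotient.eq, map_mul, map_pow, he, hs, mul_comm]
    have : u = X ^ s * e + (u - X ^ s * e) := by ring
    rw [this]
    exact Ideal.add_mem _ (Ideal.mem_sup_left (Ideal.mul_mem_right _ _
      (Ideal.mem_span_singleton_self _))) (Ideal.mem_sup_right h1)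
  · refine sup_le ?_ le_sup_right
    rw [Ideal.span_singleton_le_iff_mem]
    obtain ⟨e, he⟩ := H609.exists_pow_sub_mul_mem 𝔭₂ hs
    have : X ^ s = u * e + (X ^ s - u * e) := by ring
    rw [this]
    exact Ideal.add_mem _ (Ideal.mem_sup_left (Ideal.mul_mem_right _ _
      (Ideal.mem_span_singleton_self _))) (Ideal.mem_sup_right he)

omit [IsDomain R] in
/-- `ℓ(R / ((u) + 𝔭₂)) = s` if `u ≡ ε' X ^ s` modulo `𝔭₂`, `X` a uniformiser modulo `𝔭₂`. -/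
theorem relLen_span_sup_branch_403 {X u : R} (hX : Irreducible (Ideal.Quotient.mk 𝔭₂ X))
    {s : ℕ} {ε' : (R ⧸ 𝔭₂)ˣ}
    (hs : Ideal.Quotient.mk 𝔭₂ u = ε' * (Ideal.Quotient.mk 𝔭₂ X) ^ s) :
    H672.relLen (Ideal.span {u} ⊔ 𝔭₂) (⊤ : Ideal R) = s := by
  rw [span_sup_eq_of_mk_eq_403 𝔭₂ hs]
  exact H609.relLen_branch_pow 𝔭₂ hX s

/-- One step of the `π`-adic chain on `R / (u, Y)`. -/
theorem relLen_step_403 {π X Y ε : R} {n : ℕ} (hπ0 : π ≠ 0) (hπ₂ : π ∈ 𝔭₂)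
    (hX₂ : X ∉ 𝔭₂) (hXY : X * Y = ε * π ^ n)
    (h𝔭₂ : 𝔭₂ ≤ Ideal.span {Y} ⊔ Ideal.span {π}) {u : R} (hu : u ∉ 𝔭₂) {i : ℕ} (hi : i < n) :
    H672.relLen (Ideal.span {u} ⊔ Ideal.span {Y} ⊔ Ideal.span {π ^ (i + 1)})
        (Ideal.span {u} ⊔ Ideal.span {Y} ⊔ Ideal.span {π ^ i})
      = H672.relLen (Ideal.span {u} ⊔ 𝔭₂) (⊤ : Ideal R) := by
  symm
  refine H672.relLen_eq_of_map (LinearMap.mulRight R (π ^ i)) ?_ ?_ ?_
  · intro b _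
    rw [LinearMap.mulRight_apply]
    exact Ideal.mem_sup_right (Ideal.mul_mem_left _ _ (Ideal.mem_span_singleton_self _))
  · intro b _
    rw [LinearMap.mulRight_apply]
    constructor
    · intro hb
      obtain ⟨a, c, d, hacd⟩ := mem_span_triple_403.mp hb
      have h1 : u * a ∈ Ideal.span {Y} ⊔ Ideal.span {π ^ i} := by
        have : u * a = (-c) * Y + (b - π * d) * π ^ i := by
          have e2 : π ^ (i + 1) = π ^ i * π := pow_succ π i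
          rw [e2] at hacd
          linear_combination -hacd
        rw [this]
        exact Ideal.add_mem _
          (Ideal.mem_sup_left (Ideal.mul_mem_left _ _ (Ideal.mem_span_singleton_self _)))
          (Ideal.mem_sup_right (Ideal.mul_mem_left _ _ (Ideal.mem_span_singleton_self _)))
      obtain ⟨y, hy, z, hz, hyz⟩ := Submodule.mem_sup.mp
        (mem_span_sup_of_mul_mem_403 𝔭₂ hπ0 hπ₂ hX₂ hXY h𝔭₂ hu i hi.le a h1)
      obtain ⟨a', rfl⟩ := Ideal.mem_span_singleton'.mp hy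
      obtain ⟨a'', rfl⟩ := Ideal.mem_span_singleton'.mp hz
      have h2 : (b - u * a'') * π ^ i ∈ Ideal.span {Y} ⊔ Ideal.span {π ^ (i + 1)} := by
        have : (b - u * a'') * π ^ i = (c + u * a') * Y + d * π ^ (i + 1) := by
          rw [← hyz] at hacd
          linear_combination hacd
        rw [this]
        exact Ideal.add_mem _
          (Ideal.mem_sup_left (Ideal.mul_mem_left _ _ (Ideal.mem_span_singleton_self _)))
          (Ideal.mem_sup_right (Ideal.mul_mem_left _ _ (Ideal.mem_span_singleton_self _)))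
      have h3 := mem_of_mul_pow_mem_403 𝔭₂ hπ0 hπ₂ hX₂ hXY hi h2
      have : b = u * a'' + (b - u * a'') := by ring
      rw [this]
      exact Ideal.add_mem _ (Ideal.mem_sup_left (Ideal.mul_mem_right _ _
        (Ideal.mem_span_singleton_self _))) (Ideal.mem_sup_right h3)
    · intro hb
      obtain ⟨y, hy, z, hz, rfl⟩ := Submodule.mem_sup.mp hb
      obtain ⟨a, rfl⟩ := Ideal.mem_span_singleton'.mp hy
      obtain ⟨y', hy', z', hz', rfl⟩ := Submodule.mem_sup.mp (h𝔭₂ hz)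
      obtain ⟨c, rfl⟩ := Ideal.mem_span_singleton'.mp hy'
      obtain ⟨d, rfl⟩ := Ideal.mem_span_singleton'.mp hz'
      refine mem_span_triple_403.mpr ⟨a * π ^ i, c * π ^ i, d, ?_⟩
      rw [pow_succ]
      ring
  · intro b' hb'
    obtain ⟨a, c, d, rfl⟩ := mem_span_triple_403.mp hb'
    refine ⟨d, trivial, ?_⟩
    rw [LinearMap.mulRight_apply]
    refine mem_span_triple_403.mpr ⟨a, c, 0, ?_⟩
    ring

/-- The `π`-adic chain on `R / (u, Y)`. -/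
theorem relLen_chain_403 {π X Y ε : R} {n : ℕ} (hπ0 : π ≠ 0) (hπ₂ : π ∈ 𝔭₂)
    (hX₂ : X ∉ 𝔭₂) (hXY : X * Y = ε * π ^ n)
    (h𝔭₂ : 𝔭₂ ≤ Ideal.span {Y} ⊔ Ideal.span {π}) {u : R} (hu : u ∉ 𝔭₂) :
    ∀ i : ℕ, i ≤ n →
      H672.relLen (Ideal.span {u} ⊔ Ideal.span {Y} ⊔ Ideal.span {π ^ i}) (⊤ : Ideal R)
        = i * H672.relLen (Ideal.span {u} ⊔ 𝔭₂) (⊤ : Ideal R) := by
  intro i
  induction i with
  | zero =>
    intro _
    rw [pow_zero, Ideal.span_singleton_one, sup_top_eq, H672.relLen_self]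
    simp
  | succ i ih =>
    intro hi
    have hle : Ideal.span {u} ⊔ Ideal.span {Y} ⊔ Ideal.span {π ^ (i + 1)}
        ≤ Ideal.span {u} ⊔ Ideal.span {Y} ⊔ Ideal.span {π ^ i} :=
      sup_le_sup_left ((Ideal.span_singleton_le_span_singleton).mpr
        (pow_dvd_pow π (Nat.le_succ i))) _
    rw [H672.relLen_add hle le_top, ih (by omega),
      relLen_step_403 𝔭₂ hπ0 hπ₂ hX₂ hXY h𝔭₂ hu (by omega)]
    push_cast
    ring

/-- **The intersection number with the branch `𝔭₂`.**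
`ℓ(R / (u, Y)) = n · ord_{𝔭₂}(u)` at a node `X Y = ε π ^ n`. -/
theorem length_quotient_span_pair_403 {π X Y ε : R} {n : ℕ} (hπ0 : π ≠ 0) (hπ₂ : π ∈ 𝔭₂)
    (hX : Irreducible (Ideal.Quotient.mk 𝔭₂ X)) (hε : IsUnit ε)
    (hXY : X * Y = ε * π ^ n) (h𝔭₂ : 𝔭₂ ≤ Ideal.span {Y} ⊔ Ideal.span {π}) {u : R}
    {s : ℕ} {ε' : (R ⧸ 𝔭₂)ˣ}
    (hs : Ideal.Quotient.mk 𝔭₂ u = ε' * (Ideal.Quotient.mk 𝔭₂ X) ^ s) :
    Module.length R (R ⧸ Ideal.span {u, Y}) = n * s := by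
  have hX₂ : X ∉ 𝔭₂ := fun h => hX.ne_zero (Ideal.Quotient.eq_zero_iff_mem.mpr h)
  have hu : u ∉ 𝔭₂ := by
    intro h
    have h0 : Ideal.Quotient.mk 𝔭₂ u = 0 := Ideal.Quotient.eq_zero_iff_mem.mpr h
    rw [hs] at h0
    rcases mul_eq_zero.mp h0 with h1 | h1
    · exact ε'.ne_zero h1
    · exact hX.ne_zero (eq_zero_of_pow_eq_zero_403 h1)
  have h := relLen_chain_403 𝔭₂ hπ0 hπ₂ hX₂ hXY h𝔭₂ hu n le_rfl
  rw [relLen_span_sup_branch_403 𝔭₂ hX hs, sup_assoc, span_sup_span_pow_eq_403 hε hXY,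
    H672.relLen_top, ← Ideal.span_insert] at h
  exact h

end length

section main

variable {R : Type*} [CommRing R] [IsDomain R] [IsIntegrallyClosed R] [IsNoetherianRing R]
  [IsLocalRing R]
variable (𝔭₁ 𝔭₂ : Ideal R) [𝔭₁.IsPrime] [𝔭₂.IsPrime]
  [IsDiscreteValuationRing (R ⧸ 𝔭₁)] [IsDiscreteValuationRing (R ⧸ 𝔭₂)]

omit [IsDomain R] [IsIntegrallyClosed R] [IsNoetherianRing R] [IsLocalRing R] [𝔭₂.IsPrime]
  [IsDiscreteValuationRing (R ⧸ 𝔭₂)] in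
/-- A prime containing `π` but not the uniformiser `Y` of the branch `𝔭₁` is `𝔭₁`. -/
theorem eq_of_mem_of_notMem_403 {π Y : R} (hπ : Ideal.span {π} = 𝔭₁ ⊓ 𝔭₂) (hY₂ : Y ∈ 𝔭₂)
    (hY : Irreducible (Ideal.Quotient.mk 𝔭₁ Y)) {P : Ideal R} (hP : P.IsPrime) (hπP : π ∈ P)
    (hYP : Y ∉ P) : P = 𝔭₁ := by
  have hle : 𝔭₁ ⊓ 𝔭₂ ≤ P := by
    rw [← hπ, Ideal.span_singleton_le_iff_mem]
    exact hπP
  have h1 : 𝔭₁ ≤ P := by
    rcases (Ideal.IsPrime.inf_le hP).mp hle with h | h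
    · exact h
    · exact absurd (h hY₂) hYP
  refine le_antisymm ?_ h1
  intro z hz
  by_contra hz₁
  have hz0 : Ideal.Quotient.mk 𝔭₁ z ≠ 0 := by
    rwa [Ne, Ideal.Quotient.eq_zero_iff_mem]
  obtain ⟨k, v, hv⟩ := IsDiscreteValuationRing.eq_unit_mul_pow_irreducible hz0 hY
  exact hYP (H609.mem_of_le_of_mk_eq 𝔭₁ hv hP h1 hz)

omit [IsIntegrallyClosed R] in
/-- `(u, Y)` is primary to the maximal ideal for `u ∉ 𝔭₂`. -/
theorem exists_pow_le_span_pair_403 {π X Y ε : R} {n : ℕ} (hε : IsUnit ε)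
    (hXY : X * Y = ε * π ^ n) (h𝔭₂ : 𝔭₂ ≤ Ideal.span {Y} ⊔ Ideal.span {π}) {u : R}
    (hu : u ∉ 𝔭₂) : ∃ k : ℕ, maximalIdeal R ^ k ≤ Ideal.span {u, Y} := by
  obtain ⟨k, hk⟩ := H672.exists_pow_le_span_sup 𝔭₂ hu
  refine Ideal.exists_pow_le_of_le_radical_of_fg ?_ (IsNoetherian.noetherian _)
  intro x hx
  have h1 : x ^ k ∈ Ideal.span {u} ⊔ 𝔭₂ := hk (Ideal.pow_mem_pow hx k)
  obtain ⟨y, hy, z, hz, hyz⟩ := Submodule.mem_sup.mp h1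
  obtain ⟨a, rfl⟩ := Ideal.mem_span_singleton'.mp hy
  obtain ⟨y', hy', z', hz', rfl⟩ := Submodule.mem_sup.mp (h𝔭₂ hz)
  obtain ⟨c, rfl⟩ := Ideal.mem_span_singleton'.mp hy'
  obtain ⟨d, rfl⟩ := Ideal.mem_span_singleton'.mp hz'
  have hπn : π ^ n ∈ Ideal.span {u, Y} := by
    have h2 : π ^ n ∈ Ideal.span {Y} := by
      have h3 : π ^ n ∈ Ideal.span {Y} ⊔ Ideal.span {π ^ n} :=
        Ideal.mem_sup_right (Ideal.mem_span_singleton_self _)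
      rwa [span_sup_span_pow_eq_403 hε hXY] at h3
    exact Ideal.span_mono (by simp) h2
  have h2 : x ^ k - d * π ∈ Ideal.span {u, Y} := by
    have : x ^ k - d * π = a * u + c * Y := by rw [← hyz]; ring
    rw [this]
    exact Ideal.add_mem _ (Ideal.mul_mem_left _ _ (Ideal.subset_span (by simp)))
      (Ideal.mul_mem_left _ _ (Ideal.subset_span (by simp)))
  have h3 : (x ^ k) ^ n - (d * π) ^ n ∈ Ideal.span {u, Y} := by
    obtain ⟨e, he⟩ := sub_dvd_pow_sub_pow (x ^ k) (d * π) n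
    rw [he]
    exact Ideal.mul_mem_right _ _ h2
  have h4 : (d * π) ^ n ∈ Ideal.span {u, Y} := by
    rw [mul_pow]
    exact Ideal.mul_mem_left _ _ hπn
  refine ⟨k * n, ?_⟩
  have : x ^ (k * n) = ((x ^ k) ^ n - (d * π) ^ n) + (d * π) ^ n := by
    rw [pow_mul]; ring
  rw [this]
  exact Ideal.add_mem _ h3 h4

/-- **Lemma B.**  If `u ∉ 𝔭₂` is an `m`-th power up to units at every prime `P ∋ u` with
`Y ∉ P`, then `m ∣ n · ord_{𝔭₂}(u)`. -/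
theorem dvd_mul_ord_403 {π X Y ε : R} {n : ℕ} (hπ0 : π ≠ 0)
    (hπ : Ideal.span {π} = 𝔭₁ ⊓ 𝔭₂)
    (hX : Irreducible (Ideal.Quotient.mk 𝔭₂ X))
    (hY₂ : Y ∈ 𝔭₂) (hY : Irreducible (Ideal.Quotient.mk 𝔭₁ Y)) (hε : IsUnit ε)
    (hXY : X * Y = ε * π ^ n) {u : R} {s : ℕ} {ε' : (R ⧸ 𝔭₂)ˣ}
    (hs : Ideal.Quotient.mk 𝔭₂ u = ε' * (Ideal.Quotient.mk 𝔭₂ X) ^ s) {m : ℕ} (hm : 0 < m)
    (hloc : ∀ P : Ideal R, P.IsPrime → u ∈ P → Y ∉ P → ∃ z σ : R, σ ∉ P ∧ z ^ m = σ * u) :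
    m ∣ n * s := by
  have h𝔭₂m : 𝔭₂ ≤ maximalIdeal R :=
    IsLocalRing.le_maximalIdeal (Ideal.IsPrime.ne_top inferInstance)
  have hπ₂ : π ∈ 𝔭₂ := by
    have : π ∈ 𝔭₁ ⊓ 𝔭₂ := hπ ▸ Ideal.mem_span_singleton_self π
    exact this.2
  have hX₂ : X ∉ 𝔭₂ := fun h => hX.ne_zero (Ideal.Quotient.eq_zero_iff_mem.mpr h)
  have hY₁ : Y ∉ 𝔭₁ := fun h => hY.ne_zero (Ideal.Quotient.eq_zero_iff_mem.mpr h)
  have hY0 : Y ≠ 0 := by
    rintro rfl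
    exact hY₁ 𝔭₁.zero_mem
  have h𝔭₂ : 𝔭₂ ≤ Ideal.span {Y} ⊔ Ideal.span {π} := by
    rw [hπ]
    intro z hz
    obtain ⟨g, hg⟩ := H609.exists_sub_mul_mem_of_mem_maximalIdeal 𝔭₁ hY (h𝔭₂m hz)
    have h : z = Y * g + (z - Y * g) := by ring
    rw [h]
    exact Ideal.add_mem _
      (Ideal.mem_sup_left (Ideal.mem_span_singleton.mpr (Dvd.intro g rfl)))
      (Ideal.mem_sup_right ⟨hg, 𝔭₂.sub_mem hz (𝔭₂.mul_mem_right _ hY₂)⟩)
  have hu : u ∉ 𝔭₂ := by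
    intro h
    have h0 : Ideal.Quotient.mk 𝔭₂ u = 0 := Ideal.Quotient.eq_zero_iff_mem.mpr h
    rw [hs] at h0
    rcases mul_eq_zero.mp h0 with h1 | h1
    · exact ε'.ne_zero h1
    · exact hX.ne_zero (eq_zero_of_pow_eq_zero_403 h1)
  have hu0 : u ≠ 0 := by
    rintro rfl
    exact hu 𝔭₂.zero_mem
  obtain ⟨k, hk⟩ := exists_pow_le_span_pair_403 𝔭₂ hε hXY h𝔭₂ hu
  have hlen := H672.length_eq_mul_length u hu0 m hm Y hY0 (h𝔭₂m hY₂)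
    (dvd_of_dvd_mul_403 𝔭₂ hπ0 hπ₂ hX₂ hε hXY h𝔭₂ hu) k hk hloc
  rw [length_quotient_span_pair_403 𝔭₂ hπ0 hπ₂ hX hε hXY h𝔭₂ hs] at hlen
  generalize Module.length R (R ⧸ (H969.powRootIdeal u hu0 m hm 1 ⊔ Ideal.span {Y})) = L at hlen
  cases L with
  | top =>
    exfalso
    rw [ENat.mul_top (by exact_mod_cast hm.ne')] at hlen
    exact ENat.natCast_ne_top (n * s) (by exact_mod_cast hlen)
  | coe l =>
    refine ⟨l, ?_⟩
    exact_mod_cast hlen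

/-- **Node-slope relation, divisibility form.**  `u ∉ 𝔭₂` with `m ∣ ord_P u` at all horizontal
primes, `v_{𝔭₁}(u) = c`, `ord_{𝔭₂}(u) = s`; if `m ∣ c + n j` then `m ∣ n (s + j)`. -/
theorem node_slope_dvd_403 {π X Y ε : R} {n : ℕ} (hπ0 : π ≠ 0)
    (hπ : Ideal.span {π} = 𝔭₁ ⊓ 𝔭₂)
    (hX : Irreducible (Ideal.Quotient.mk 𝔭₂ X))
    (hY₂ : Y ∈ 𝔭₂) (hY : Irreducible (Ideal.Quotient.mk 𝔭₁ Y)) (hε : IsUnit ε)
    (hXY : X * Y = ε * π ^ n) {u : R} {s : ℕ} {ε' : (R ⧸ 𝔭₂)ˣ}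
    (hs : Ideal.Quotient.mk 𝔭₂ u = ε' * (Ideal.Quotient.mk 𝔭₂ X) ^ s) {m : ℕ} (hm : 0 < m)
    (H1 : ∀ P : Ideal R, P.IsPrime → u ∈ P → π ∉ P → ∃ z σ : R, σ ∉ P ∧ z ^ m = σ * u)
    {c : ℕ} {σ₀ τ₀ : R} (hσ₀ : σ₀ ∉ 𝔭₁) (hτ₀ : τ₀ ∉ 𝔭₁) (hc : σ₀ * u = τ₀ * π ^ c)
    {j : ℕ} (hj : m ∣ c + n * j) : m ∣ n * (s + j) := by
  have hY₁ : Y ∉ 𝔭₁ := fun h => hY.ne_zero (Ideal.Quotient.eq_zero_iff_mem.mpr h)
  have hs' : Ideal.Quotient.mk 𝔭₂ (u * X ^ j)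
      = ε' * (Ideal.Quotient.mk 𝔭₂ X) ^ (s + j) := by
    rw [map_mul, map_pow, hs, pow_add, mul_assoc]
  refine dvd_mul_ord_403 𝔭₁ 𝔭₂ hπ0 hπ hX hY₂ hY hε hXY hs' hm ?_
  intro P hP huP hYP
  obtain ⟨m', rfl⟩ : ∃ m', m = m' + 1 := ⟨m - 1, by omega⟩
  by_cases hπP : π ∈ P
  · obtain rfl := eq_of_mem_of_notMem_403 𝔭₁ 𝔭₂ hπ hY₂ hY hP hπP hYP
    obtain ⟨q, hq⟩ := hj
    refine ⟨τ₀ * ε ^ j * π ^ q, σ₀ * Y ^ j * (τ₀ * ε ^ j) ^ m', ?_, ?_⟩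
    · intro h
      rcases (Ideal.IsPrime.mem_or_mem hP h) with h1 | h1
      · rcases (Ideal.IsPrime.mem_or_mem hP h1) with h2 | h2
        · exact hσ₀ h2
        · exact hY₁ (hP.mem_of_pow_mem j h2)
      · rcases (Ideal.IsPrime.mem_or_mem hP (hP.mem_of_pow_mem m' h1)) with h2 | h2
        · exact hτ₀ h2
        · exact hP.ne_top (Ideal.eq_top_of_isUnit_mem _ (hP.mem_of_pow_mem j h2) hε)
    · have e1 : σ₀ * Y ^ j * (τ₀ * ε ^ j) ^ m' * (u * X ^ j)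
          = (σ₀ * u) * (X * Y) ^ j * (τ₀ * ε ^ j) ^ m' := by ring
      rw [e1, hc, hXY]
      have e2 : (τ₀ * ε ^ j * π ^ q) ^ (m' + 1)
          = (τ₀ * ε ^ j) ^ (m' + 1) * π ^ ((m' + 1) * q) := by
        rw [mul_pow, ← pow_mul, mul_comm q]
      rw [e2, ← hq]
      ring
  · have hXP : X ∉ P := by
      intro h
      have h1 : ε * π ^ n ∈ P := hXY ▸ P.mul_mem_right _ h
      rcases (Ideal.IsPrime.mem_or_mem hP h1) with h2 | h2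
      · exact hP.ne_top (Ideal.eq_top_of_isUnit_mem _ h2 hε)
      · exact hπP (hP.mem_of_pow_mem n h2)
    have huP' : u ∈ P := by
      rcases (Ideal.IsPrime.mem_or_mem hP huP) with h | h
      · exact h
      · exact absurd (hP.mem_of_pow_mem j h) hXP
    obtain ⟨z, σ, hσ, hz⟩ := H1 P hP huP' hπP
    refine ⟨z * X ^ j, σ * (X ^ j) ^ m', ?_, ?_⟩
    · intro h
      rcases (Ideal.IsPrime.mem_or_mem hP h) with h1 | h1
      · exact hσ h1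
      · exact hXP (hP.mem_of_pow_mem j (hP.mem_of_pow_mem m' h1))
    · rw [mul_pow, hz, pow_succ (X ^ j) m']
      ring

/-- **CT2 / P-NODE: the node-slope relation.**  At a node `X Y = ε π ^ n` of thickness `n`
prime to `m`: if `u ∉ 𝔭₂` has `m ∣ ord_P u` at all horizontal primes `P` (`π ∉ P`), then

  `n · ord_{𝔭₂}(u mod 𝔭₂) ≡ v_{𝔭₁}(u)   (mod m)`. -/
theorem node_slope_modEq_403 {π X Y ε : R} {n : ℕ} (hπ0 : π ≠ 0)
    (hπ : Ideal.span {π} = 𝔭₁ ⊓ 𝔭₂)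
    (hX : Irreducible (Ideal.Quotient.mk 𝔭₂ X))
    (hY₂ : Y ∈ 𝔭₂) (hY : Irreducible (Ideal.Quotient.mk 𝔭₁ Y)) (hε : IsUnit ε)
    (hXY : X * Y = ε * π ^ n) {u : R} {s : ℕ} {ε' : (R ⧸ 𝔭₂)ˣ}
    (hs : Ideal.Quotient.mk 𝔭₂ u = ε' * (Ideal.Quotient.mk 𝔭₂ X) ^ s) {m : ℕ} (hm : 0 < m)
    (hnm : Nat.Coprime n m)
    (H1 : ∀ P : Ideal R, P.IsPrime → u ∈ P → π ∉ P → ∃ z σ : R, σ ∉ P ∧ z ^ m = σ * u)
    {c : ℕ} {σ₀ τ₀ : R} (hσ₀ : σ₀ ∉ 𝔭₁) (hτ₀ : τ₀ ∉ 𝔭₁) (hc : σ₀ * u = τ₀ * π ^ c) :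
    ((n * s : ℕ) : ℤ) ≡ (c : ℤ) [ZMOD (m : ℤ)] := by
  -- choose `j` with `m ∣ c + n j`
  obtain ⟨j, hj⟩ : ∃ j : ℕ, m ∣ c + n * j := by
    obtain ⟨j, -, hj⟩ := Nat.exists_mul_mod_eq_of_coprime (c * (m - 1)) hnm hm.ne'
    refine ⟨j, ?_⟩
    have h3 : n * j ≡ c * (m - 1) [MOD m] := hj
    have h4 : c + n * j ≡ c + c * (m - 1) [MOD m] := Nat.ModEq.add_left c h3
    have h5 : c + c * (m - 1) = m * c := by
      obtain ⟨m', rfl⟩ : ∃ m', m = m' + 1 := ⟨m - 1, by omega⟩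
      simp only [Nat.add_sub_cancel]
      ring
    rw [h5] at h4
    exact (Nat.modEq_zero_iff_dvd).mp (h4.trans (by
      rw [Nat.modEq_zero_iff_dvd]; exact Dvd.intro c rfl))
  have h := node_slope_dvd_403 𝔭₁ 𝔭₂ hπ0 hπ hX hY₂ hY hε hXY hs hm H1 hσ₀ hτ₀ hc hj
  have h1 : (m : ℤ) ∣ ((n * (s + j) : ℕ) : ℤ) := by exact_mod_cast h
  have h2 : (m : ℤ) ∣ ((c + n * j : ℕ) : ℤ) := by exact_mod_cast hj
  rw [Int.modEq_iff_dvd]
  have h3 : (c : ℤ) - ((n * s : ℕ) : ℤ) = ((c + n * j : ℕ) : ℤ) - ((n * (s + j) : ℕ) : ℤ) := by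
    push_cast
    ring
  rw [h3]
  exact dvd_sub h2 h1

/-- **Exact node-slope relation for purely vertical elements.**  If `u ∉ 𝔭₂` lies in no
horizontal prime (every prime containing `u` contains `π`), then

  `n · ord_{𝔭₂}(u mod 𝔭₂) = v_{𝔭₁}(u)`. -/
theorem node_slope_eq_403 {π X Y ε : R} {n : ℕ} (hπ0 : π ≠ 0)
    (hπ : Ideal.span {π} = 𝔭₁ ⊓ 𝔭₂)
    (hX : Irreducible (Ideal.Quotient.mk 𝔭₂ X))
    (hY₂ : Y ∈ 𝔭₂) (hY : Irreducible (Ideal.Quotient.mk 𝔭₁ Y)) (hε : IsUnit ε)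
    (hXY : X * Y = ε * π ^ n) {u : R} {s : ℕ} {ε' : (R ⧸ 𝔭₂)ˣ}
    (hs : Ideal.Quotient.mk 𝔭₂ u = ε' * (Ideal.Quotient.mk 𝔭₂ X) ^ s)
    (Hv : ∀ P : Ideal R, P.IsPrime → u ∈ P → π ∈ P)
    {c : ℕ} {σ₀ τ₀ : R} (hσ₀ : σ₀ ∉ 𝔭₁) (hτ₀ : τ₀ ∉ 𝔭₁) (hc : σ₀ * u = τ₀ * π ^ c) :
    n * s = c := by
  set b : ℕ := c + n * s + 1 with hb
  have hm : 0 < c + n * b := by
    rcases Nat.eq_zero_or_pos n with h0 | h0
    · -- `n = 0` is impossible: `Y` would be a unit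
      exfalso
      subst h0
      rw [pow_zero, mul_one] at hXY
      have hYu : IsUnit Y := isUnit_of_mul_isUnit_right (hXY ▸ hε)
      exact (Ideal.IsPrime.ne_top (inferInstance : 𝔭₂.IsPrime))
        (Ideal.eq_top_of_isUnit_mem _ hY₂ hYu)
    · have : 0 < n * b := Nat.mul_pos h0 (by omega)
      omega
  have h := node_slope_dvd_403 𝔭₁ 𝔭₂ hπ0 hπ hX hY₂ hY hε hXY hs hm
    (fun P hP huP hπP => absurd (Hv P hP huP) hπP) hσ₀ hτ₀ hc (dvd_refl _)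
  -- `c + n b ∣ n (s + b)` with `b` large forces `n s = c`
  have hn : 0 < n := by
    rcases Nat.eq_zero_or_pos n with h0 | h0
    · exfalso
      subst h0
      rw [pow_zero, mul_one] at hXY
      have hYu : IsUnit Y := isUnit_of_mul_isUnit_right (hXY ▸ hε)
      exact (Ideal.IsPrime.ne_top (inferInstance : 𝔭₂.IsPrime))
        (Ideal.eq_top_of_isUnit_mem _ hY₂ hYu)
    · exact h0
  have h1 : ((c + n * b : ℕ) : ℤ) ∣ ((n * (s + b) : ℕ) : ℤ) := by exact_mod_cast h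
  have h2 : ((c + n * b : ℕ) : ℤ) ∣ ((n * s : ℕ) : ℤ) - (c : ℤ) := by
    have : ((n * s : ℕ) : ℤ) - (c : ℤ) = ((n * (s + b) : ℕ) : ℤ) - ((c + n * b : ℕ) : ℤ) := by
      push_cast
      ring
    rw [this]
    exact dvd_sub h1 (dvd_refl _)
  have hbn : b ≤ n * b := Nat.le_mul_of_pos_left b hn
  have h3 : |((n * s : ℕ) : ℤ) - (c : ℤ)| < ((c + n * b : ℕ) : ℤ) := by
    rw [abs_lt]
    constructor
    · push_cast
      have : (0 : ℤ) ≤ (n : ℤ) * s := by positivity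
      have h4 : (0 : ℤ) < (n : ℤ) * b := by exact_mod_cast (by omega : 0 < n * b)
      linarith
    · have : ((n * s : ℕ) : ℤ) < ((c + n * b : ℕ) : ℤ) := by exact_mod_cast (by omega)
      have hc0 : (0 : ℤ) ≤ c := by positivity
      linarith
  have h4 := Int.eq_zero_of_abs_lt_dvd h2 h3
  have h5 : ((n * s : ℕ) : ℤ) = (c : ℤ) := by linarith
  exact_mod_cast h5

omit [IsDomain R] [IsIntegrallyClosed R] [IsNoetherianRing R] [IsLocalRing R] [𝔭₁.IsPrime]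
  [IsDiscreteValuationRing (R ⧸ 𝔭₁)] in
/-- The order on the branch `𝔭₂` exists for every `u ∉ 𝔭₂`. -/
theorem exists_ord_403 {X : R} (hX : Irreducible (Ideal.Quotient.mk 𝔭₂ X)) {u : R}
    (hu : u ∉ 𝔭₂) :
    ∃ (s : ℕ) (ε' : (R ⧸ 𝔭₂)ˣ),
      Ideal.Quotient.mk 𝔭₂ u = ε' * (Ideal.Quotient.mk 𝔭₂ X) ^ s := by
  have hu0 : Ideal.Quotient.mk 𝔭₂ u ≠ 0 := by
    rwa [Ne, Ideal.Quotient.eq_zero_iff_mem]
  obtain ⟨k, v, hv⟩ := IsDiscreteValuationRing.eq_unit_mul_pow_irreducible hu0 hX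
  exact ⟨k, v, hv⟩

end main

end Fermat.Agent.Ribet.H403
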