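import Fermat.Agent.Ribet.H704.TwoLevelSpec
import Fermat.Agent.Ribet.H939.CoverNode2
import Fermat.Agent.Ribet.H7.NodePureTame
import Fermat.Agent.Ribet.H699.PureDescent

/-!
# RIBET row 38, WALL-p, (S4) CORE-OUT, WILD half: the TWO-LEVEL NODE lemma (helper403)

`twoLevelNode_403 : H704.CoreOut.TwoLevelNodeStatement` (frozen in `Ribet/H704/TwoLevelSpec.lean`),
VERBATIM, unconditional.

Chain (all on main):
* `H939.coverNode2` (A5): cover node rings `R' ⊆ L₁` over `R₁`, `R'' ⊆ L₂` over `R₂`, `R' ⊆ R''`;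
* hypothesis `(V)` at `R'` + `H7.nodePureTame` (A3): `u₁ = π₁ ^ a · ε · d ^ p`, `ε ∈ R'ˣ`;
* `π₁ = η₂ π₂ ^ e₂`, `c₂ = η₃ π₂ ^ a₃`: `G₂ = π₂ ^ (a₃ + e₂ a) · (η₃ η₂ ^ a ε) · (d b) ^ p` in `L₂`,
  with `η₃ η₂ ^ a ε ∈ R''ˣ`;
* `H699.pureDescent` (A2): `G₂` is pure in `R₂`.
-/

set_option autoImplicit false
set_option linter.unusedSectionVars false
set_option linter.style.haveILetI false
set_option maxHeartbeats 1000000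

namespace Fermat.Agent.Ribet.H403

open Fermat.Agent.Ribet.H704 Fermat.Agent.Ribet.H704.I6 Fermat.Agent.Ribet.H704.CoreOut

/-- Integer powers of a unit under a ring homomorphism into a field. -/
theorem map_units_zpow_403 {R K : Type*} [CommRing R] [Field K] (f : R →+* K) (u : Rˣ) (a : ℤ) :
    f ((u ^ a : Rˣ) : R) = (f (u : R)) ^ a := by
  have h1 : ((Units.map (f : R →* K) (u ^ a) : Kˣ) : K) = f ((u ^ a : Rˣ) : R) := rfl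
  rw [← h1, map_zpow, Units.val_zpow_eq_zpow_val]
  rfl

/-- **TWO-LEVEL NODE**: the frozen leaf of `Ribet/H704/TwoLevelSpec.lean`. -/
theorem twoLevelNode_403 : TwoLevelNodeStatement := by
  intro R₁ R₂ K₁ K₂ L₁ L₂ _ _ _ _ _ _ _ _ _ _ _ _ _ _ _ _ _ _ _ _ _ _ _ _ _ _ _ _ _
    𝔭₁ 𝔭₂ π₁ x₁ y₁ hN₁ 𝔮₁ 𝔮₂ π₂ x₂ y₂ hN₂ hac₁ hac₂ hinj hq₁ hq₂ η₂ e₂ hη₂ hπ₁₂
    p hp ζ hζ lam ε η e hlam hε hlamp hη he hlamπ g hg₁ hg₂ hgdiv hs₁ hs₂ h hh hadj₁ hadj₂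
    N hNp D D' hDD u₁ hu₁ hu₁div hV G₂ c₂ b hG₂ hb hc₂ hGeq hG₂div
  -- (A5) the cover node rings
  obtain ⟨R', R'', hloc', hloc'', ⟨hic', hnoe', hfr', hN', hc1', hc2'⟩,
      ⟨hic'', hnoe'', hfr'', hN'', hc1'', hc2''⟩, hincl⟩ :=
    H939.coverNode2 R₁ R₂ K₁ K₂ L₁ L₂ 𝔭₁ 𝔭₂ π₁ x₁ y₁ hN₁ 𝔮₁ 𝔮₂ π₂ x₂ y₂ hN₂ hac₁ hac₂ hinj
      hq₁ hq₂ p hp ζ hζ lam ε η e hlam hε hlamp hη he hlamπ g hg₁ hg₂ hgdiv hs₁ hs₂ h hh
      hadj₁ hadj₂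
  -- (V) + (A3): `u₁` is pure in `R'`
  obtain ⟨d, a, ε', hd, hε', hu₁eq⟩ :
      ∃ (d : L₁) (a : ℤ) (ε' : R'), d ≠ 0 ∧ IsUnit ε' ∧
        u₁ = algebraMap R₁ L₁ π₁ ^ a * (ε' : L₁) * d ^ p := by
    haveI := hloc'
    haveI := hic'
    haveI := hnoe'
    haveI := hfr'
    have hvd₁ := H132.vertData_left hN'
    have hvd₂ := H132.vertData_right hN'
    obtain ⟨w₁, hw₁⟩ := H132.exists_valAt (K := L₁) hvd₁ hu₁
    obtain ⟨w₂, hw₂⟩ := H132.exists_valAt (K := L₁) hvd₂ hu₁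
    have hdvd := hV R' hloc' hic' hnoe' hfr' hN' hc1' hc2' w₁ w₂ hw₁ hw₂
    have hDD' : IsUnitPair (𝔭₁.map (algebraMap R₁ R')) (𝔭₂.map (algebraMap R₁ R'))
        (algebraMap R₁ R' π₁) (algebraMap R₁ R' D) (algebraMap R₁ R' D') N :=
      ⟨by rw [← map_mul, hDD.mul_eq, map_pow], fun h => hDD.hD (hc1' D h),
        fun h => hDD.hD' (hc2' D' h)⟩
    have hdiv' : HorDivVal (R := R') L₁ (algebraMap R₁ R' π₁) p u₁ := by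
      intro V hV hR hπ
      exact hu₁div V hV (fun r => hR (algebraMap R₁ R' r)) hπ
    obtain ⟨d, a, ε', hd, hε', hu₁eq⟩ := H7.nodePureTame R' L₁ _ _ _ _ _ hN' p N hp.ne_zero
      hNp _ _ hDD' u₁ hu₁ hdiv' w₁ w₂ hw₁ hw₂ hdvd
    exact ⟨d, a, ε', hd, hε', hu₁eq⟩
  -- the unit of `R''`
  obtain ⟨η₃, a₃, hη₃, hc₂eq⟩ := hc₂
  obtain ⟨ε'inv, hεinv⟩ := hε'.exists_right_inv
  set η₂u : R₂ˣ := hη₂.unit with hη₂u
  set η₃u : R₂ˣ := hη₃.unit with hη₃u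
  set εR₂ : R₂ˣ := η₃u * η₂u ^ a with hεR₂
  let ε₁'' : R'' := ⟨algebraMap L₁ L₂ (ε' : L₁), hincl _ ε'.2⟩
  let ε₁inv'' : R'' := ⟨algebraMap L₁ L₂ (ε'inv : L₁), hincl _ ε'inv.2⟩
  have hε₁'' : IsUnit ε₁'' := by
    refine IsUnit.of_mul_eq_one ε₁inv'' ?_
    apply Subtype.ext
    show algebraMap L₁ L₂ (ε' : L₁) * algebraMap L₁ L₂ (ε'inv : L₁) = 1
    rw [← map_mul]
    have : ((ε' * ε'inv : R') : L₁) = 1 := by rw [hεinv]; rfl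
    have h2 : (ε' : L₁) * (ε'inv : L₁) = 1 := this
    rw [h2, map_one]
  have hεtot : IsUnit (algebraMap R₂ R'' (εR₂ : R₂) * ε₁'') :=
    ((εR₂.isUnit).map (algebraMap R₂ R'')).mul hε₁''
  -- `G₂` is pure in `R''`
  have hpure'' : ∃ (d : L₂) (a : ℤ) (ε : R''), d ≠ 0 ∧ IsUnit ε ∧
      algebraMap K₂ L₂ G₂ = algebraMap R₂ L₂ π₂ ^ a * (ε : L₂) * d ^ p := by
    refine ⟨algebraMap L₁ L₂ d * b, a₃ + (e₂ : ℤ) * a, algebraMap R₂ R'' (εR₂ : R₂) * ε₁'',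
      mul_ne_zero ((map_ne_zero _).2 hd) hb, hεtot, ?_⟩
    have hπ₂0 : algebraMap R₂ L₂ π₂ ≠ 0 := by
      have hπ₂ : π₂ ≠ 0 := H132.isNode_pi_ne_zero hN₂
      rw [IsScalarTower.algebraMap_apply R₂ K₂ L₂]
      exact (map_ne_zero _).2 (fun h0 =>
        hπ₂ (IsFractionRing.injective R₂ K₂ (by rw [h0, map_zero])))
    have hη₂0 : algebraMap R₂ L₂ η₂ ≠ 0 := by
      have hu : IsUnit (algebraMap R₂ L₂ η₂) := hη₂.map (algebraMap R₂ L₂)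
      exact hu.ne_zero
    -- the image of `π₁`
    have e1 : algebraMap L₁ L₂ (algebraMap R₁ L₁ π₁) =
        algebraMap R₂ L₂ η₂ * algebraMap R₂ L₂ π₂ ^ e₂ := by
      rw [← IsScalarTower.algebraMap_apply R₁ L₁ L₂, IsScalarTower.algebraMap_apply R₁ R₂ L₂,
        hπ₁₂, map_mul, map_pow]
    -- the image of `c₂`
    have e2 : algebraMap K₂ L₂ c₂ = algebraMap R₂ L₂ η₃ * algebraMap R₂ L₂ π₂ ^ a₃ := by
      rw [hc₂eq, map_mul, map_zpow₀, ← IsScalarTower.algebraMap_apply R₂ K₂ L₂,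
        ← IsScalarTower.algebraMap_apply R₂ K₂ L₂]
    -- the unit
    have e3 : ((algebraMap R₂ R'' (εR₂ : R₂) * ε₁'' : R'') : L₂) =
        algebraMap R₂ L₂ η₃ * algebraMap R₂ L₂ η₂ ^ a * algebraMap L₁ L₂ (ε' : L₁) := by
      have h1 : ((algebraMap R₂ R'' (εR₂ : R₂) * ε₁'' : R'') : L₂) =
          algebraMap R₂ L₂ (εR₂ : R₂) * algebraMap L₁ L₂ (ε' : L₁) := rfl
      rw [h1, hεR₂, Units.val_mul, map_mul, map_units_zpow_403 (algebraMap R₂ L₂) η₂u a]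
      rfl
    rw [hGeq, hu₁eq, map_mul, map_mul, map_zpow₀, map_pow, e1, e2, e3, mul_zpow,
      zpow_add₀ hπ₂0, mul_pow, ← zpow_natCast (algebraMap R₂ L₂ π₂) e₂, ← zpow_mul]
    ring
  -- (A2) descent to `R₂`
  exact H699.pureDescent R₂ K₂ L₂ 𝔮₁ 𝔮₂ π₂ x₂ y₂ hN₂ R'' hloc'' hic'' hnoe'' hfr'' hN''
    hc1'' hc2'' p hp.ne_zero G₂ hG₂ hG₂div hpure''

end Fermat.Agent.Ribet.H403
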